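import Fermat.Agent.S48.GT.Fixed2

/-!
# S48 / GT / DC : double counting of pairs (element of `G`, fixed point on `ℙ¹`)

`∑_{L ∈ X} #{g ∈ T : g L = L} = ∑_{g ∈ T} #(Fix g ∩ X)`
(`Finset.sum_card_bipartiteAbove_eq_sum_card_bipartiteBelow`, after `classical` and
`Set.ncard_eq_toFinset_card'`), then `ncard_fixed_le`, `ncard_fixed_eq`, `finite_fixed`.
-/

namespace Fermat.Agent.S48.GT

open Matrix
open scoped LinearAlgebra.Projectivization MatrixGroups

universe u

variable {k : Type u} [Field k]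

/-- The fixed points of the non-scalar elements of `G` form a finite set. -/
theorem exists_finset_fixed (G : Subgroup (GL (Fin 2) k)) [Finite G] :
    ∃ X : Finset (P1 k), ∀ g : G, ¬ IsSc (g : GL (Fin 2) k) → ∀ L : P1 k, g • L = L → L ∈ X := by
  classical
  have hS : ∀ g : G, {L : P1 k | ¬ IsSc (g : GL (Fin 2) k) ∧ g • L = L}.Finite := by
    intro g
    by_cases hg : IsSc (g : GL (Fin 2) k)
    · refine Set.Finite.subset Set.finite_empty ?_
      rintro L ⟨h, -⟩
      exact absurd hg h
    · refine Set.Finite.subset (finite_fixed (g : GL (Fin 2) k) hg) ?_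
      rintro L ⟨-, h⟩
      exact h
  refine ⟨(Set.finite_iUnion hS).toFinset, fun g hg L hL => ?_⟩
  rw [Set.Finite.mem_toFinset, Set.mem_iUnion]
  exact ⟨g, hg, hL⟩

/-- the double counting identity -/
theorem DC_sum_eq (G : Subgroup (GL (Fin 2) k)) [Finite G] (X : Finset (P1 k)) (T : Set G) :
    ∑ L ∈ X, {g : G | g • L = L ∧ g ∈ T}.ncard
      = ∑ᶠ g ∈ T, ({L : P1 k | g • L = L} ∩ (X : Set (P1 k))).ncard := by
  classical
  have : Fintype G := Fintype.ofFinite G
  rw [finsum_mem_eq_sum_of_subset (s := T) (t := T.toFinset) _ (by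
    intro x hx; simpa using hx.1) (by simp)]
  have h := Finset.sum_card_bipartiteAbove_eq_sum_card_bipartiteBelow (s := X) (t := T.toFinset)
    (fun (L : P1 k) (g : G) => g • L = L)
  have h1 : ∀ L : P1 k, {g : G | g • L = L ∧ g ∈ T}.ncard
      = (T.toFinset.bipartiteAbove (fun (L : P1 k) (g : G) => g • L = L) L).card := by
    intro L
    rw [← Set.ncard_coe_finset]
    congr 1
    ext g
    simp [Finset.bipartiteAbove, and_comm]
  have h2 : ∀ g : G, ({L : P1 k | g • L = L} ∩ (X : Set (P1 k))).ncard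
      = (X.bipartiteBelow (fun (L : P1 k) (g : G) => g • L = L) g).card := by
    intro g
    rw [← Set.ncard_coe_finset]
    congr 1
    ext L
    simp [Finset.bipartiteBelow, and_comm]
  simp_rw [h1, h2]
  exact h

theorem dc_le (G : Subgroup (GL (Fin 2) k)) [Finite G] (X : Finset (P1 k)) (T : Set G)
    (hT : ∀ g ∈ T, ¬ IsSc (g : GL (Fin 2) k)) :
    ∑ L ∈ X, {g : G | g • L = L ∧ g ∈ T}.ncard ≤ 2 * T.ncard := by
  classical
  have : Fintype G := Fintype.ofFinite G
  rw [DC_sum_eq, finsum_mem_eq_sum_of_subset (s := T) (t := T.toFinset) _ (by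
    intro x hx; simpa using hx.1) (by simp)]
  calc ∑ g ∈ T.toFinset, ({L : P1 k | g • L = L} ∩ (X : Set (P1 k))).ncard
      ≤ ∑ g ∈ T.toFinset, 2 := by
        refine Finset.sum_le_sum fun g hg => ?_
        have hg' : g ∈ T := by simpa using hg
        refine le_trans (Set.ncard_le_ncard Set.inter_subset_left
          (finite_fixed (g : GL (Fin 2) k) (hT g hg'))) ?_
        exact ncard_fixed_le (g : GL (Fin 2) k) (hT g hg')
    _ = 2 * T.ncard := by
        rw [Finset.sum_const, smul_eq_mul, mul_comm, Set.ncard_eq_toFinset_card']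

theorem dc_ge (G : Subgroup (GL (Fin 2) k)) [Finite G] (X : Finset (P1 k)) (T : Set G)
    (hT : ∀ g ∈ T, ∃ a b : k, a ≠ b ∧ Eig (g : GL (Fin 2) k) a b)
    (hX : ∀ g ∈ T, ∀ L : P1 k, g • L = L → L ∈ X) :
    2 * T.ncard ≤ ∑ L ∈ X, {g : G | g • L = L ∧ g ∈ T}.ncard := by
  classical
  have : Fintype G := Fintype.ofFinite G
  rw [DC_sum_eq, finsum_mem_eq_sum_of_subset (s := T) (t := T.toFinset) _ (by
    intro x hx; simpa using hx.1) (by simp)]
  calc 2 * T.ncard = ∑ g ∈ T.toFinset, 2 := by
        rw [Finset.sum_const, smul_eq_mul, mul_comm, Set.ncard_eq_toFinset_card']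
    _ ≤ ∑ g ∈ T.toFinset, ({L : P1 k | g • L = L} ∩ (X : Set (P1 k))).ncard := by
        refine Finset.sum_le_sum fun g hg => ?_
        have hg' : g ∈ T := by simpa using hg
        obtain ⟨a, b, hab, hE⟩ := hT g hg'
        have : {L : P1 k | g • L = L} ∩ (X : Set (P1 k)) = {L : P1 k | g • L = L} := by
          apply Set.inter_eq_left.mpr
          intro L hL
          exact hX g hg' L hL
        rw [this]
        exact (ncard_fixed_eq (g : GL (Fin 2) k) a b hab hE).ge

end Fermat.Agent.S48.GT
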