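import Fermat.Agent.S48.GT.Loc
import Fermat.Agent.S48.GT.DC

/-!
# S48 / GT / A : statement (A) of board #1262
-/

namespace Fermat.Agent.S48.GT

open Matrix
open scoped LinearAlgebra.Projectivization MatrixGroups

universe u

variable {k : Type u} [Field k]

/-- **(A)**  `|S_d| (d - 1) ≤ φ(d) |G|`. -/
theorem A_bound (G : Subgroup (GL (Fin 2) k)) [Finite G] (d : ℕ) (hd : 2 ≤ d) :
    {g : G | SD d (g : GL (Fin 2) k)}.ncard * (d - 1) ≤ d.totient * Nat.card G := by
  obtain ⟨X, hX⟩ := exists_finset_fixed G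
  have h1 := dc_ge G X {g : G | SD d (g : GL (Fin 2) k)} (fun g hg => SD.exists_ne hd hg)
    (fun g hg L hL => hX g (SD.not_isSc hd hg) L hL)
  have h2 := dc_le G X {g : G | ¬ IsSc (g : GL (Fin 2) k)} (fun g hg => hg)
  have h3 : {g : G | ¬ IsSc (g : GL (Fin 2) k)}.ncard ≤ Nat.card G := by
    rw [← Set.ncard_univ]
    exact Set.ncard_le_ncard (Set.subset_univ _) (Set.toFinite _)
  have h4 : (∑ L ∈ X, {g : G | g • L = L ∧ g ∈ {g : G | SD d (g : GL (Fin 2) k)}}.ncard) * (d - 1)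
      ≤ d.totient *
        ∑ L ∈ X, {g : G | g • L = L ∧ g ∈ {g : G | ¬ IsSc (g : GL (Fin 2) k)}}.ncard := by
    rw [Finset.sum_mul, Finset.mul_sum]
    exact Finset.sum_le_sum (fun L _ => A_loc G d hd L)
  have h5 : 2 * ({g : G | SD d (g : GL (Fin 2) k)}.ncard * (d - 1)) ≤
      2 * (d.totient * Nat.card G) := by
    calc 2 * ({g : G | SD d (g : GL (Fin 2) k)}.ncard * (d - 1))
        = (2 * {g : G | SD d (g : GL (Fin 2) k)}.ncard) * (d - 1) := by ring
      _ ≤ (∑ L ∈ X, {g : G | g • L = L ∧ g ∈ {g : G | SD d (g : GL (Fin 2) k)}}.ncard) * (d - 1) :=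
          Nat.mul_le_mul_right _ h1
      _ ≤ _ := h4
      _ ≤ d.totient * (2 * {g : G | ¬ IsSc (g : GL (Fin 2) k)}.ncard) :=
          Nat.mul_le_mul_left _ h2
      _ ≤ d.totient * (2 * Nat.card G) := by gcongr
      _ = 2 * (d.totient * Nat.card G) := by ring
  omega

end Fermat.Agent.S48.GT
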