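import Mathlib

/-!
# S48 / GT / AbsHom : two counting lemmas for a character `ρ : S → kˣ` of a finite group

`card_order_mul_le`.  If no `g` has `orderOf (ρ g) = d` the left side is `0`.  Otherwise fix `g₀`,
`ζ = ρ g₀` of order `d`, `K = ker ρ`.  Every fibre of `ρ` has at most (exactly) `|K|` elements; the
elements of order `d` of `kˣ` are the `φ(d)` primitive `d`-th roots of unity
(`IsPrimitiveRoot.card_primitiveRoots`, `IsPrimitiveRoot.orderOf`), so the left set has at most
`φ(d) |K|` elements; the right set contains the `d - 1` disjoint cosets `g₀ ^ j K`, `1 ≤ j < d`.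

`card_le_two_mul`.  `g ↦ g * x` maps `{ρ g ^ m = 1}` injectively into `{ρ g ^ m ≠ 1}`.
-/

namespace Fermat.Agent.S48.GT

theorem card_filter_image_mul {k : Type*} [Field k] {S : Type*} [Group S] [Fintype S]
    [DecidableEq kˣ] (ρ : S →* kˣ) (P : kˣ → Prop) [DecidablePred P] :
    (Finset.univ.filter (fun g : S => P (ρ g))).card =
      ((Finset.univ.filter (fun g : S => P (ρ g))).image ρ).card *
        (Finset.univ.filter (fun g : S => ρ g = 1)).card := by
  classical
  rw [Finset.card_eq_sum_card_image ρ, Finset.sum_const_nat (m := (Finset.univ.filter (fun g : S => ρ g = 1)).card)]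
  intro u hu
  obtain ⟨g₁, hg₁, rfl⟩ := Finset.mem_image.1 hu
  have hP : P (ρ g₁) := (Finset.mem_filter.1 hg₁).2
  refine Finset.card_bij' (fun g _ => g₁⁻¹ * g) (fun g _ => g₁ * g) ?_ ?_ ?_ ?_
  · intro g hg
    simp only [Finset.mem_filter, Finset.mem_univ, true_and] at hg ⊢
    rw [map_mul, map_inv, hg.2, inv_mul_cancel]
  · intro g hg
    simp only [Finset.mem_filter, Finset.mem_univ, true_and] at hg ⊢
    rw [map_mul, hg, mul_one]
    exact ⟨hP, rfl⟩
  · intro g _; simp
  · intro g _; simp

theorem card_order_mul_le {k : Type*} [Field k] {S : Type*} [Group S] [Finite S] (ρ : S →* kˣ)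
    (d : ℕ) (hd : 2 ≤ d) :
    {g : S | orderOf (ρ g) = d}.ncard * (d - 1) ≤ d.totient * {g : S | ρ g ≠ 1}.ncard := by
  classical
  have := Fintype.ofFinite S
  rw [Set.ncard_eq_toFinset_card', Set.ncard_eq_toFinset_card']
  simp only [Set.toFinset_ofPred]
  rw [card_filter_image_mul ρ (fun u => orderOf u = d), card_filter_image_mul ρ (fun u => u ≠ 1)]
  set c := (Finset.univ.filter (fun g : S => ρ g = 1)).card
  set A := (Finset.univ.filter (fun g : S => orderOf (ρ g) = d)).image ρ with hA
  set B := (Finset.univ.filter (fun g : S => ρ g ≠ 1)).image ρ with hB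
  rcases A.eq_empty_or_nonempty with h0 | ⟨ζ, hζ⟩
  · rw [h0]; simp
  obtain ⟨g₀, hg₀, rfl⟩ := Finset.mem_image.1 hζ
  have ho : orderOf (ρ g₀) = d := (Finset.mem_filter.1 hg₀).2
  have hprim : IsPrimitiveRoot ((ρ g₀ : kˣ) : k) d := by
    rw [IsPrimitiveRoot.coe_units_iff, ← ho]
    exact IsPrimitiveRoot.orderOf _
  have h1 : A.card ≤ d.totient := by
    rw [← hprim.card_primitiveRoots]
    refine Finset.card_le_card_of_injOn (fun u => (u : k)) ?_ ?_
    · intro u hu
      obtain ⟨g, hg, rfl⟩ := Finset.mem_image.1 hu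
      have : orderOf (ρ g) = d := (Finset.mem_filter.1 hg).2
      simp only [Finset.mem_coe]
      rw [mem_primitiveRoots (by omega), IsPrimitiveRoot.coe_units_iff, ← this]
      exact IsPrimitiveRoot.orderOf _
    · intro a _ b _ h
      exact Units.ext h
  have h2 : d - 1 ≤ B.card := by
    have : (Finset.Ico 1 d).card ≤ B.card := by
      refine Finset.card_le_card_of_injOn (fun j => ρ g₀ ^ j) ?_ ?_
      · intro j hj
        have hj' := Finset.mem_Ico.1 (Finset.mem_coe.1 hj)
        simp only [Finset.mem_coe]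
        refine Finset.mem_image.2 ⟨g₀ ^ j, ?_, map_pow _ _ _⟩
        simp only [Finset.mem_filter, Finset.mem_univ, true_and, map_pow]
        intro h
        have := orderOf_dvd_of_pow_eq_one h
        rw [ho] at this
        exact absurd (Nat.le_of_dvd (by omega) this) (by omega)
      · intro a ha b hb h
        have ha' := Finset.mem_Ico.1 (Finset.mem_coe.1 ha)
        have hb' := Finset.mem_Ico.1 (Finset.mem_coe.1 hb)
        exact pow_injOn_Iio_orderOf (by simp [ho]; omega) (by simp [ho]; omega) h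
    simpa using this
  calc A.card * c * (d - 1) = A.card * (d - 1) * c := by ring
    _ ≤ d.totient * B.card * c := Nat.mul_le_mul_right _ (Nat.mul_le_mul h1 h2)
    _ = d.totient * (B.card * c) := by ring

theorem card_le_two_mul {k : Type*} [Field k] {S : Type*} [Group S] [Finite S] (ρ : S →* kˣ)
    (m : ℕ) (x : S) (hx : ρ x ^ m ≠ 1) :
    Nat.card S ≤ 2 * {g : S | ρ g ^ m ≠ 1}.ncard := by
  classical
  have h1 : {g : S | ρ g ^ m = 1}.ncard ≤ {g : S | ρ g ^ m ≠ 1}.ncard := by
    refine Set.ncard_le_ncard_of_injOn (fun g => g * x) ?_ ?_ (Set.toFinite _)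
    · intro g hg
      simp only [Set.mem_ofPred_eq] at hg ⊢
      rw [map_mul, mul_pow, hg, one_mul]
      exact hx
    · intro a _ b _ h
      exact mul_right_cancel h
  have h2 : {g : S | ρ g ^ m = 1}.ncard + {g : S | ρ g ^ m ≠ 1}.ncard = Nat.card S := by
    have : {g : S | ρ g ^ m ≠ 1} = {g : S | ρ g ^ m = 1}ᶜ := by
      ext g; simp
    rw [this]
    exact Set.ncard_add_ncard_compl _
  omega

end Fermat.Agent.S48.GT
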