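import Mathlib

/-!
# S48 / GT / Arith : the arithmetic of the class equation `∑ (1 - 1/e_ω) = 2 (1 - 1/n)`

`N = |G|`, `z = |Z|`, `s ω = |Stab|`; put `n = N / z`, `e ω = s ω / z ≥ 2`, `o ω = N / s ω = n / e ω`.
The hypothesis reads `∑ o ω + 2 (n - 1) = r n`, i.e. `∑ (n - o ω) = 2 n - 2`, `r = |Ω|`.
Each term is `≥ n / 2`, so `r ≤ 3`.
`r = 0`: `n = 1`.  `r = 1`: `n - o = 2 n - 2`, `n + o = 2`, `n = 1` (in fact impossible as `e ≥ 2`).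
`r = 2`: `o₁ + o₂ = 2`, so `o₁ = 1 ≤ 2`.
`r = 3`: `o₁ + o₂ + o₃ = n + 2`.  Not all `e_i ≥ 3`; say `e₁ = 2`: `o₂ + o₃ = n/2 + 2`; not both
`e₂, e₃ ≥ 4`; say `e₂ ∈ {2, 3}`.  `e₂ = 2`: `o₃ = 2`.  `e₂ = 3`: `n / e₃ = n / 6 + 2`, so `e₃ ≤ 5`
and `n = 12 e₃ / (6 - e₃) ≤ 60`.
-/

namespace Fermat.Agent.S48.GT

theorem arith_B (n e₃ o₁ o₂ o₃ : ℕ) (h1 : n = 2 * o₁) (h2 : n = 2 * o₂ ∨ n = 3 * o₂)
    (h3 : n = e₃ * o₃) (ho₃ : 3 ≤ o₃) (h60 : 60 < n) (hs : o₁ + o₂ + o₃ = n + 2) : False := by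
  rcases h2 with h2 | h2
  · omega
  · have h6 : 6 * o₃ = n + 12 := by omega
    have he : e₃ < 6 := by
      by_contra h
      have h' : 6 * o₃ ≤ e₃ * o₃ := Nat.mul_le_mul_right _ (not_lt.mp h)
      omega
    interval_cases e₃ <;> omega

theorem arith_A (n e₂ e₃ o₁ o₂ o₃ : ℕ) (h1 : n = 2 * o₁) (he₂ : 2 ≤ e₂) (he₃ : 2 ≤ e₃)
    (h2 : n = e₂ * o₂) (h3 : n = e₃ * o₃) (ho₂ : 3 ≤ o₂) (ho₃ : 3 ≤ o₃) (h60 : 60 < n)
    (hs : o₁ + o₂ + o₃ = n + 2) : False := by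
  by_cases h : e₂ ≤ 3
  · refine arith_B n e₃ o₁ o₂ o₃ h1 ?_ h3 ho₃ h60 hs
    have : e₂ = 2 ∨ e₂ = 3 := by omega
    rcases this with rfl | rfl
    · exact Or.inl h2
    · exact Or.inr h2
  by_cases h' : e₃ ≤ 3
  · refine arith_B n e₂ o₁ o₃ o₂ h1 ?_ h2 ho₂ h60 (by omega)
    have : e₃ = 2 ∨ e₃ = 3 := by omega
    rcases this with rfl | rfl
    · exact Or.inl h3
    · exact Or.inr h3
  have h4 : 4 * o₂ ≤ e₂ * o₂ := Nat.mul_le_mul_right _ (by omega)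
  have h5 : 4 * o₃ ≤ e₃ * o₃ := Nat.mul_le_mul_right _ (by omega)
  omega

theorem arith_tri (n e₁ e₂ e₃ o₁ o₂ o₃ : ℕ) (he₁ : 2 ≤ e₁) (he₂ : 2 ≤ e₂) (he₃ : 2 ≤ e₃)
    (h1 : n = e₁ * o₁) (h2 : n = e₂ * o₂) (h3 : n = e₃ * o₃) (ho₁ : 3 ≤ o₁) (ho₂ : 3 ≤ o₂)
    (ho₃ : 3 ≤ o₃) (h60 : 60 < n) (hs : o₁ + o₂ + o₃ = n + 2) : False := by
  by_cases c1 : e₁ ≤ 2
  · obtain rfl : e₁ = 2 := by omega
    exact arith_A n e₂ e₃ o₁ o₂ o₃ h1 he₂ he₃ h2 h3 ho₂ ho₃ h60 hs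
  by_cases c2 : e₂ ≤ 2
  · obtain rfl : e₂ = 2 := by omega
    exact arith_A n e₁ e₃ o₂ o₁ o₃ h2 he₁ he₃ h1 h3 ho₁ ho₃ h60 (by omega)
  by_cases c3 : e₃ ≤ 2
  · obtain rfl : e₃ = 2 := by omega
    exact arith_A n e₁ e₂ o₃ o₁ o₂ h3 he₁ he₂ h1 h2 ho₁ ho₂ h60 (by omega)
  have h4 : 3 * o₁ ≤ e₁ * o₁ := Nat.mul_le_mul_right _ (by omega)
  have h5 : 3 * o₂ ≤ e₂ * o₂ := Nat.mul_le_mul_right _ (by omega)
  have h6 : 3 * o₃ ≤ e₃ * o₃ := Nat.mul_le_mul_right _ (by omega)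
  omega

theorem arith_fin (r n : ℕ) (e o : Fin r → ℕ) (he : ∀ i, 2 ≤ e i) (hn : ∀ i, n = e i * o i)
    (hn1 : 1 ≤ n) (heq : ∑ i, o i + 2 * (n - 1) = r * n) : n ≤ 60 ∨ ∃ i, o i ≤ 2 := by
  by_contra hcon
  push Not at hcon
  obtain ⟨h60, ho⟩ := hcon
  have h2 : ∀ i, 2 * o i ≤ n := by
    intro i
    rw [hn i]
    exact Nat.mul_le_mul_right _ (he i)
  have hsum : 2 * ∑ i, o i ≤ r * n := by
    rw [Finset.mul_sum]
    have := Finset.sum_le_card_nsmul (Finset.univ : Finset (Fin r)) (fun i => 2 * o i) n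
      (fun i _ => h2 i)
    simpa using this
  have hr : r ≤ 3 := by
    by_contra h
    have h4 : 4 * n ≤ r * n := Nat.mul_le_mul_right n (by omega)
    omega
  interval_cases r
  · simp at heq
    omega
  · rw [Fin.sum_univ_one] at heq
    have := ho 0
    omega
  · rw [Fin.sum_univ_two] at heq
    have := ho 0
    have := ho 1
    omega
  · rw [Fin.sum_univ_three] at heq
    exact arith_tri n (e 0) (e 1) (e 2) (o 0) (o 1) (o 2) (he 0) (he 1) (he 2) (hn 0) (hn 1) (hn 2)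
      (ho 0) (ho 1) (ho 2) h60 (by omega)

theorem arith {Ω : Type*} [Fintype Ω] (N z : ℕ) (s : Ω → ℕ) (hz : 0 < z) (hN : 0 < N)
    (hzN : z ∣ N) (hzs : ∀ ω, z ∣ s ω) (hsN : ∀ ω, s ω ∣ N) (hlt : ∀ ω, z < s ω)
    (heq : z * ∑ ω, N / s ω + 2 * (N - z) = Fintype.card Ω * N) :
    N ≤ 60 * z ∨ ∃ ω, N ≤ 2 * s ω := by
  obtain ⟨n, rfl⟩ := hzN
  have hn1 : 1 ≤ n := Nat.pos_of_mul_pos_left hN
  choose e he using hzs
  have he2 : ∀ ω, 2 ≤ e ω := by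
    intro ω
    have h := hlt ω
    rw [he ω] at h
    have h' : z * 1 < z * e ω := by rwa [mul_one]
    exact Nat.lt_of_mul_lt_mul_left h'
  have hdvd : ∀ ω, e ω ∣ n := by
    intro ω
    have h := hsN ω
    rw [he ω] at h
    exact Nat.dvd_of_mul_dvd_mul_left hz h
  choose o ho using hdvd
  have hdiv : ∀ ω, z * n / s ω = o ω := by
    intro ω
    rw [he ω, Nat.mul_div_mul_left _ _ hz, ho ω, Nat.mul_div_cancel_left _ (by have := he2 ω; omega)]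
  simp only [hdiv] at heq
  have heq' : ∑ ω, o ω + 2 * (n - 1) = Fintype.card Ω * n := by
    apply Nat.eq_of_mul_eq_mul_left hz
    have h1 : z * n - z = z * (n - 1) := by rw [Nat.mul_sub, mul_one]
    rw [h1] at heq
    calc z * (∑ ω, o ω + 2 * (n - 1)) = z * ∑ ω, o ω + 2 * (z * (n - 1)) := by ring
      _ = Fintype.card Ω * (z * n) := heq
      _ = z * (Fintype.card Ω * n) := by ring
  let ε : Fin (Fintype.card Ω) ≃ Ω := (Fintype.equivFin Ω).symm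
  have hsum : ∑ i, o (ε i) = ∑ ω, o ω := Equiv.sum_comp ε o
  rcases arith_fin (Fintype.card Ω) n (fun i => e (ε i)) (fun i => o (ε i)) (fun i => he2 _)
    (fun i => ho _) hn1 (by rw [hsum]; exact heq') with h | ⟨i, hi⟩
  · left
    rw [mul_comm 60 z]
    exact Nat.mul_le_mul_left z h
  · right
    refine ⟨ε i, ?_⟩
    rw [he (ε i)]
    have h1 : n ≤ e (ε i) * 2 := by
      conv_lhs => rw [ho (ε i)]
      exact Nat.mul_le_mul_left _ hi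
    calc z * n ≤ z * (e (ε i) * 2) := Nat.mul_le_mul_left z h1
      _ = 2 * (z * e (ε i)) := by ring

end Fermat.Agent.S48.GT
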