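import Fermat.Agent.S48.GT.Mat

/-!
# S48 / GT / Stab : the stabiliser of a line and the scalars
-/

namespace Fermat.Agent.S48.GT

open Matrix
open scoped LinearAlgebra.Projectivization MatrixGroups

universe u

variable {k : Type u} [Field k]

lemma Zs_le_stabilizer (G : Subgroup (GL (Fin 2) k)) (L : P1 k) :
    Zs G ≤ MulAction.stabilizer G L := by
  intro g hg
  rw [MulAction.mem_stabilizer_iff]
  exact IsSc.smul_eq (mem_Zs.1 hg) L

/-- In the stabiliser `S` of a line `L = k v` in a group of order prime to the characteristic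
there are at most two elements with a given (trace, det).
Proof: for `h ∈ S` let `χ h` be the eigenvalue on `v`.  `h ↦ (td h, χ h)` is injective on `S`
(if `td h = td h'`, `χ h = χ h'` then `h⁻¹ h'` fixes `v` and has determinant one: `eq_one_of_fix`
with `n = Nat.card G`) and `χ h` is a root of `X² - t X + d`, `(t, d) = td h` (`eigen_root`), which
has at most two roots. -/
theorem ncard_inter_stabilizer_le (G : Subgroup (GL (Fin 2) k)) [Finite G]
    (hl : ((Nat.card G : ℕ) : k) ≠ 0) (L : P1 k) (H : Set G) (Y : Finset (k × k))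
    (hY : ∀ h ∈ H, td (h : GL (Fin 2) k) ∈ Y) :
    (H ∩ (MulAction.stabilizer G L : Set G)).ncard ≤ 2 * Y.card := by
  classical
  induction L using Projectivization.ind with
  | h v hv =>
  -- the eigenvalue on `v`
  have hχ : ∀ h : G, h ∈ MulAction.stabilizer G (Projectivization.mk k v hv : P1 k) →
      ∃ c : k, ((h : GL (Fin 2) k) : Matrix (Fin 2) (Fin 2) k) *ᵥ v = c • v := by
    intro h hh
    rw [MulAction.mem_stabilizer_iff] at hh
    exact (smul_mk_eq_iff (h : GL (Fin 2) k) v hv).1 hh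
  let χ : G → k := fun h =>
    if hh : h ∈ MulAction.stabilizer G (Projectivization.mk k v hv : P1 k) then (hχ h hh).choose
    else 0
  have hχs : ∀ h : G, h ∈ MulAction.stabilizer G (Projectivization.mk k v hv : P1 k) →
      ((h : GL (Fin 2) k) : Matrix (Fin 2) (Fin 2) k) *ᵥ v = χ h • v := by
    intro h hh
    simp only [χ, dif_pos hh]
    exact (hχ h hh).choose_spec
  -- the target set
  let q : k × k → Polynomial k := fun y =>
    Polynomial.X ^ 2 - (Polynomial.C y.1 * Polynomial.X - Polynomial.C y.2)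
  have hqdeg : ∀ y : k × k, (Polynomial.C y.1 * Polynomial.X - Polynomial.C y.2 : Polynomial k).degree
      < ((2 : ℕ) : WithBot ℕ) := by
    intro y
    refine lt_of_le_of_lt (Polynomial.degree_sub_le _ _) (max_lt ?_ ?_)
    · refine lt_of_le_of_lt (Polynomial.degree_C_mul_X_le _) ?_
      norm_num
    · refine lt_of_le_of_lt Polynomial.degree_C_le ?_
      norm_num
  have hqm : ∀ y, (q y).Monic := fun y => Polynomial.monic_X_pow_sub (hqdeg y)
  have hqn : ∀ y, (q y).natDegree ≤ 2 := by
    intro y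
    refine (Polynomial.natDegree_sub_le _ _).trans (max_le ?_ ?_)
    · exact (Polynomial.natDegree_X_pow_le 2)
    · exact Polynomial.natDegree_le_of_degree_le (hqdeg y).le
  let W : Finset ((k × k) × k) := Y.biUnion fun y => (q y).roots.toFinset.image fun c => (y, c)
  have hW : W.card ≤ 2 * Y.card := by
    refine (Finset.card_biUnion_le).trans ?_
    rw [mul_comm, ← smul_eq_mul]
    refine Finset.sum_le_card_nsmul _ _ _ (fun y _ => ?_)
    refine (Finset.card_image_le).trans ((Multiset.toFinset_card_le _).trans ?_)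
    exact (Polynomial.card_roots' _).trans (hqn y)
  let f : G → (k × k) × k := fun h => (td (h : GL (Fin 2) k), χ h)
  have hmaps : ∀ h ∈ H ∩ (MulAction.stabilizer G (Projectivization.mk k v hv : P1 k) : Set G),
      f h ∈ (W : Set ((k × k) × k)) := by
    rintro h ⟨hH, hS⟩
    rw [Finset.mem_coe, Finset.mem_biUnion]
    refine ⟨td (h : GL (Fin 2) k), hY h hH, Finset.mem_image.2 ⟨χ h, ?_, rfl⟩⟩
    rw [Multiset.mem_toFinset, Polynomial.mem_roots (hqm _).ne_zero, Polynomial.IsRoot.def]
    have h1 := eigen_root _ (χ h) v hv (hχs h hS)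
    simp only [q, td, Polynomial.eval_sub, Polynomial.eval_pow, Polynomial.eval_X,
      Polynomial.eval_mul, Polynomial.eval_C]
    linear_combination h1
  have hinj : Set.InjOn f
      (H ∩ (MulAction.stabilizer G (Projectivization.mk k v hv : P1 k) : Set G)) := by
    rintro h ⟨-, hS⟩ h' ⟨-, hS'⟩ hff
    have htd : td (h : GL (Fin 2) k) = td (h' : GL (Fin 2) k) := congrArg Prod.fst hff
    have hc : χ h = χ h' := congrArg Prod.snd hff
    have hdet : ((h : GL (Fin 2) k) : Matrix (Fin 2) (Fin 2) k).det =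
        ((h' : GL (Fin 2) k) : Matrix (Fin 2) (Fin 2) k).det := congrArg Prod.snd htd
    have hinv : (((h : GL (Fin 2) k)⁻¹ : GL (Fin 2) k) : Matrix (Fin 2) (Fin 2) k) *
        ((h : GL (Fin 2) k) : Matrix (Fin 2) (Fin 2) k) = 1 := (h : GL (Fin 2) k).inv_mul
    have h1 : (((h⁻¹ * h' : G) : GL (Fin 2) k) : Matrix (Fin 2) (Fin 2) k) =
        (((h : GL (Fin 2) k)⁻¹ : GL (Fin 2) k) : Matrix (Fin 2) (Fin 2) k) *
          ((h' : GL (Fin 2) k) : Matrix (Fin 2) (Fin 2) k) := rfl
    have hone : ((h⁻¹ * h' : G) : GL (Fin 2) k) = 1 := by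
      refine eq_one_of_fix _ (Nat.card G) hl ?_ v hv ?_ ?_
      · rw [← Subgroup.coe_pow, pow_card_eq_one', Subgroup.coe_one]
      · rw [h1, ← Matrix.mulVec_mulVec, hχs h' hS', ← hc, ← hχs h hS, Matrix.mulVec_mulVec, hinv,
          Matrix.one_mulVec]
      · rw [h1, Matrix.det_mul, ← hdet, ← Matrix.det_mul, hinv, Matrix.det_one]
    have hone' : h⁻¹ * h' = 1 := Subtype.ext hone
    exact (inv_mul_eq_one.1 hone')
  have h := Set.ncard_le_ncard_of_injOn f hmaps hinj W.finite_toSet
  rw [Set.ncard_coe_finset] at h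
  exact h.trans hW

/-- `c • 1 ∈ G` implies `c ^ (2 e) = det ^ e = 1`: at most `2 e` scalars. -/
theorem card_Zs_le (G : Subgroup (GL (Fin 2) k)) [Finite G] (e : ℕ) (he : 0 < e)
    (hdet : ∀ g ∈ G, (g : Matrix (Fin 2) (Fin 2) k).det ^ e = 1) :
    Nat.card (Zs G) ≤ 2 * e := by
  classical
  have he2 : 0 < 2 * e := by omega
  have hmem : ∀ g : Zs G, (((g : G) : GL (Fin 2) k) : Matrix (Fin 2) (Fin 2) k) 0 0 ∈
      (Polynomial.nthRoots (2 * e) (1 : k)).toFinset := by
    intro g
    obtain ⟨c, hc⟩ := mem_Zs.1 g.2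
    rw [Multiset.mem_toFinset, Polynomial.mem_nthRoots he2, hc]
    have h1 := hdet _ (g : G).2
    rw [hc, Matrix.det_smul, Matrix.det_one, mul_one, Fintype.card_fin, ← pow_mul] at h1
    simpa using h1
  let f : Zs G → (Polynomial.nthRoots (2 * e) (1 : k)).toFinset := fun g => ⟨_, hmem g⟩
  have hf : Function.Injective f := by
    intro g g' hgg
    have h00 : (((g : G) : GL (Fin 2) k) : Matrix (Fin 2) (Fin 2) k) 0 0 =
        (((g' : G) : GL (Fin 2) k) : Matrix (Fin 2) (Fin 2) k) 0 0 := congrArg Subtype.val hgg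
    obtain ⟨c, hc⟩ := mem_Zs.1 g.2
    obtain ⟨c', hc'⟩ := mem_Zs.1 g'.2
    rw [hc, hc'] at h00
    have hcc : c = c' := by simpa using h00
    apply Subtype.ext
    apply Subtype.ext
    apply Units.ext
    rw [hc, hc', hcc]
  have h := Nat.card_le_card_of_injective f hf
  rw [Nat.card_eq_fintype_card (α := (Polynomial.nthRoots (2 * e) (1 : k)).toFinset),
    Fintype.card_coe] at h
  exact h.trans ((Multiset.toFinset_card_le _).trans (Polynomial.card_nthRoots _ _))

end Fermat.Agent.S48.GT
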