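import Fermat.Agent.S48.GT.Fixed
import Fermat.Agent.S48.GT.Stab

/-!
# S48 / GT / Burnside : the class equation for the action of `G` on `ℙ¹(k)`

`X` = set of points of `ℙ¹(k)` fixed by some non-scalar element of `G`; it is finite
(`≤ 2 |G|` points, `ncard_fixed`) and `G`-stable (conjugate).  Burnside's lemma
(`MulAction.sum_card_fixedBy_eq_card_orbits_mul_card_group`) on `X`: a scalar fixes all of `X`,
a non-scalar element fixes exactly two points of `ℙ¹`, both in `X`:
`|Z| |X| + 2 (|G| - |Z|) = r |G|`, and `|X| = ∑_ω |G| / |Stab|`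
(`MulAction.card_eq_sum_card_group_div_card_stabilizer`).
-/

set_option linter.style.haveILetI false

namespace Fermat.Agent.S48.GT

open Matrix
open scoped LinearAlgebra.Projectivization MatrixGroups

universe u

variable {k : Type u} [Field k]

lemma IsSc.conj {z : GL (Fin 2) k} (hz : IsSc z) (a : GL (Fin 2) k) : IsSc (a * z * a⁻¹) := by
  obtain ⟨c, hc⟩ := hz
  refine ⟨c, ?_⟩
  have h1 : ((a * z * a⁻¹ : GL (Fin 2) k) : Matrix (Fin 2) (Fin 2) k) =
      (a : Matrix (Fin 2) (Fin 2) k) * (z : Matrix (Fin 2) (Fin 2) k) *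
        ((a⁻¹ : GL (Fin 2) k) : Matrix (Fin 2) (Fin 2) k) := by
    rw [Units.val_mul, Units.val_mul]
  rw [h1, hc, Matrix.mul_smul, mul_one, Matrix.smul_mul, a.mul_inv]

/-- The `G`-set of points of `ℙ¹(k)` fixed by a non-scalar element of `G`. -/
def fixPts (G : Subgroup (GL (Fin 2) k)) : SubMulAction G (P1 k) where
  carrier := {L | ∃ g : G, g ∉ Zs G ∧ g • L = L}
  smul_mem' := by
    rintro h L ⟨g, hg, hgL⟩
    refine ⟨h * g * h⁻¹, fun hz => hg ?_, ?_⟩
    · have h1 := IsSc.conj (mem_Zs.mp hz) ((h⁻¹ : G) : GL (Fin 2) k)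
      have h2 : ((h⁻¹ : G) : GL (Fin 2) k) * ((h * g * h⁻¹ : G) : GL (Fin 2) k) *
          ((h⁻¹ : G) : GL (Fin 2) k)⁻¹ = g := by
        push_cast
        group
      rw [h2] at h1
      exact mem_Zs.mpr h1
    · rw [smul_smul, inv_mul_cancel_right, mul_smul, hgL]

theorem burnside [IsAlgClosed k] (G : Subgroup (GL (Fin 2) k)) [Finite G]
    (hl : ((Nat.card G : ℕ) : k) ≠ 0) :
    ∃ (Ω : Type u) (_ : Fintype Ω) (L : Ω → P1 k),
      (∀ ω, ∃ g : G, g ∈ MulAction.stabilizer G (L ω) ∧ g ∉ Zs G) ∧
      Nat.card (Zs G) * ∑ ω, Nat.card G / Nat.card (MulAction.stabilizer G (L ω))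
        + 2 * (Nat.card G - Nat.card (Zs G)) = Fintype.card Ω * Nat.card G := by
  classical
  haveI : Fintype G := Fintype.ofFinite G
  have hord : ∀ g : G, (g : GL (Fin 2) k) ^ Nat.card G = 1 := fun g => by
    have h := pow_card_eq_one' (G := G) (x := g)
    exact_mod_cast congrArg Subtype.val h
  have hfix2 : ∀ g : G, g ∉ Zs G → {L : P1 k | g • L = L}.ncard = 2 := fun g hg =>
    ncard_fixed (g : GL (Fin 2) k) hg _ hl (hord g)
  have hXfin : ((fixPts G).carrier).Finite := by
    have hsub : (fixPts G).carrier ⊆ ⋃ g ∈ {g : G | g ∉ Zs G}, {L : P1 k | g • L = L} := by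
      rintro L ⟨g, hg, hgL⟩
      exact Set.mem_biUnion hg hgL
    refine Set.Finite.subset (Set.Finite.biUnion (Set.toFinite _) fun g hg => ?_) hsub
    exact Set.finite_of_ncard_ne_zero (by rw [hfix2 g hg]; norm_num)
  haveI : Finite (fixPts G) := hXfin.to_subtype
  haveI : Fintype (fixPts G) := Fintype.ofFinite _
  -- fixed points
  have hcard : ∀ g : G, Fintype.card (MulAction.fixedBy (fixPts G) g) =
      if g ∈ Zs G then Fintype.card (fixPts G) else 2 := by
    intro g
    split_ifs with hg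
    · have h1 : MulAction.fixedBy (fixPts G) g = Set.univ := by
        ext x
        simp only [MulAction.mem_fixedBy, Set.mem_univ, iff_true]
        exact Subtype.ext (IsSc.smul_eq (mem_Zs.mp hg) x.1)
      rw [← Nat.card_eq_fintype_card, ← Nat.card_eq_fintype_card, h1, Nat.card_univ]
    · rw [← Nat.card_eq_fintype_card, Nat.card_coe_set_eq]
      refine Eq.trans ?_ (hfix2 g hg)
      rw [← Set.ncard_image_of_injective _ Subtype.val_injective]
      congr 1
      ext L
      constructor
      · rintro ⟨x, hx, rfl⟩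
        exact congrArg Subtype.val hx
      · intro hL
        exact ⟨⟨L, g, hg, hL⟩, Subtype.ext hL, rfl⟩
  have hB := MulAction.sum_card_fixedBy_eq_card_orbits_mul_card_group G (fixPts G)
  have hC := MulAction.card_eq_sum_card_group_div_card_stabilizer G (fixPts G)
  refine ⟨Quotient (MulAction.orbitRel G (fixPts G)), inferInstance, fun ω => (ω.out : P1 k), ?_, ?_⟩
  · intro ω
    obtain ⟨g, hg, hgL⟩ := ω.out.2
    exact ⟨g, hgL, hg⟩
  · simp only [hcard] at hB
    rw [Finset.sum_ite, Finset.sum_const, Finset.sum_const, smul_eq_mul, smul_eq_mul] at hB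
    have h1 : (Finset.univ.filter fun g : G => g ∈ Zs G).card = Nat.card (Zs G) := by
      rw [Nat.card_eq_fintype_card, Fintype.card_subtype]
    have h2 : (Finset.univ.filter fun g : G => g ∉ Zs G).card = Nat.card G - Nat.card (Zs G) := by
      rw [← h1, Nat.card_eq_fintype_card, ← Finset.card_univ (α := G),
        ← Finset.card_filter_add_card_filter_not (s := Finset.univ) (fun g : G => g ∈ Zs G)]
      omega
    rw [h1, h2, hC] at hB
    rw [← Nat.card_eq_fintype_card (α := G)] at hB
    rw [← hB, mul_comm _ 2]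
    congr 2
    refine Finset.sum_congr rfl fun ω _ => ?_
    rw [← SubMulAction.stabilizer_of_subMul, Nat.card_eq_fintype_card, Nat.card_eq_fintype_card]

end Fermat.Agent.S48.GT
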