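import Fermat.Agent.S48.GT.Unip

/-!
# S48 / GT / Index : the fixed line of a transvection `u ∈ G`, `G` semisimple, has at least
`l + 1` conjugates

(1) `L₀ = k v` is not `G`-stable: otherwise `SS` gives a stable `w ∉ k v`; `u w = c w`, so
`ν w = (c - 1) w`, `0 = ν² w = (c - 1)² w`, `c = 1`, `ν w = 0`, `w ∈ k v` (`hker`): contradiction.
(2) Take `g ∈ G` with `g v ∉ k v`, `w = g v`.  The points `L₀`, `u ^ t • mk w` (`t < l`) of the orbit
of `L₀` are pairwise distinct: `u ^ s = 1 + s ν` (`pow_eq_of_sq_zero`); if `(1 + s ν) w = c w` then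
`s ν w = (c - 1) w`, apply `ν`: `(c - 1) ν w = 0`, `ν w ≠ 0` so `c = 1`, `s = 0` in `k`, `l ∣ s`.
And `u ^ t • mk w = L₀` iff `mk w = L₀`.
(3) `MulAction.card_orbit_mul_card_stabilizer_eq_card_group`.
-/

namespace Fermat.Agent.S48.GT

open Matrix
open scoped LinearAlgebra.Projectivization MatrixGroups

universe u

variable {k : Type u} [Field k]

/-- (1) the fixed line of a transvection of a semisimple group is not stable. -/
theorem index_exists_not_stable (G : Subgroup (GL (Fin 2) k)) (hss : SS G) (u : G)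
    (h2 : (((u : GL (Fin 2) k) : Matrix (Fin 2) (Fin 2) k) - 1) *
        (((u : GL (Fin 2) k) : Matrix (Fin 2) (Fin 2) k) - 1) = 0)
    (v : Fin 2 → k) (hv : v ≠ 0)
    (hker : ∀ w, (((u : GL (Fin 2) k) : Matrix (Fin 2) (Fin 2) k) - 1) *ᵥ w = 0 →
      ∃ c : k, w = c • v) :
    ∃ g ∈ G, ∀ c : k, (g : Matrix (Fin 2) (Fin 2) k) *ᵥ v ≠ c • v := by
  by_contra hcon
  have hst : ∀ g ∈ G, ∃ c : k, (g : Matrix (Fin 2) (Fin 2) k) *ᵥ v = c • v := by
    intro g hg
    by_contra h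
    exact hcon ⟨g, hg, fun c hc => h ⟨c, hc⟩⟩
  obtain ⟨w, hw, hwst⟩ := hss v hv hst
  obtain ⟨c, hc⟩ := hwst u u.2
  have hw0 : w ≠ 0 := by
    have := hw 0
    rwa [zero_smul] at this
  have h1 : (((u : GL (Fin 2) k) : Matrix (Fin 2) (Fin 2) k) - 1) *ᵥ w = (c - 1) • w := by
    rw [Matrix.sub_mulVec, hc, Matrix.one_mulVec, sub_smul, one_smul]
  have h3 : ((c - 1) * (c - 1)) • w = 0 := by
    have h4 : ((((u : GL (Fin 2) k) : Matrix (Fin 2) (Fin 2) k) - 1) *
        (((u : GL (Fin 2) k) : Matrix (Fin 2) (Fin 2) k) - 1)) *ᵥ w = 0 := by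
      rw [h2, Matrix.zero_mulVec]
    rw [← Matrix.mulVec_mulVec, h1, Matrix.mulVec_smul, h1, smul_smul] at h4
    exact h4
  have hc1 : c - 1 = 0 := by
    rcases smul_eq_zero.1 h3 with h | h
    · exact mul_self_eq_zero.1 h
    · exact absurd h hw0
  rw [hc1, zero_smul] at h1
  obtain ⟨c', hc'⟩ := hker w h1
  exact hw c' hc'

/-- (2) a power `u ^ d` of the transvection which fixes a line `≠ L₀` has `l ∣ d`. -/
theorem index_dvd_of_fix (l : ℕ) [CharP k l] (U : Matrix (Fin 2) (Fin 2) k)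
    (h2 : (U - 1) * (U - 1) = 0) (w : Fin 2 → k) (hνw : (U - 1) *ᵥ w ≠ 0) (d : ℕ) (c : k)
    (h : (U ^ d) *ᵥ w = c • w) : l ∣ d := by
  rw [pow_eq_of_sq_zero U h2 d, Matrix.add_mulVec, Matrix.one_mulVec, Matrix.smul_mulVec] at h
  have h1 : (d : k) • ((U - 1) *ᵥ w) = (c - 1) • w := by
    rw [sub_smul, one_smul, ← h]
    abel
  have h3 : (c - 1) • ((U - 1) *ᵥ w) = 0 := by
    have h4 := congrArg (fun x => (U - 1) *ᵥ x) h1
    simp only [Matrix.mulVec_smul, Matrix.mulVec_mulVec, h2, Matrix.zero_mulVec, smul_zero] at h4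
    exact h4.symm
  have hc1 : c - 1 = 0 := (smul_eq_zero.1 h3).resolve_right hνw
  rw [hc1, zero_smul] at h1
  exact (CharP.cast_eq_zero_iff k l d).1 ((smul_eq_zero.1 h1).resolve_right hνw)

theorem succ_mul_card_stabilizer_le (l : ℕ) [Fact l.Prime] [CharP k l]
    (G : Subgroup (GL (Fin 2) k)) [Finite G] (hss : SS G) (u : G)
    (h0 : (((u : GL (Fin 2) k) : Matrix (Fin 2) (Fin 2) k) - 1) ≠ 0)
    (h2 : (((u : GL (Fin 2) k) : Matrix (Fin 2) (Fin 2) k) - 1) *
        (((u : GL (Fin 2) k) : Matrix (Fin 2) (Fin 2) k) - 1) = 0)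
    (v : Fin 2 → k) (hv : v ≠ 0)
    (hνv : (((u : GL (Fin 2) k) : Matrix (Fin 2) (Fin 2) k) - 1) *ᵥ v = 0)
    (hker : ∀ w, (((u : GL (Fin 2) k) : Matrix (Fin 2) (Fin 2) k) - 1) *ᵥ w = 0 →
      ∃ c : k, w = c • v) :
    (l + 1) * Nat.card (MulAction.stabilizer G (Projectivization.mk k v hv : P1 k))
      ≤ Nat.card G := by
  classical
  obtain ⟨g, hg, hgv⟩ := index_exists_not_stable G hss u h2 v hv hker
  set L₀ : P1 k := Projectivization.mk k v hv with hL₀
  set w : Fin 2 → k := (g : Matrix (Fin 2) (Fin 2) k) *ᵥ v with hw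
  have hw0 : w ≠ 0 := mulVec_ne_zero g v hv
  have hνw : (((u : GL (Fin 2) k) : Matrix (Fin 2) (Fin 2) k) - 1) *ᵥ w ≠ 0 := by
    intro h
    obtain ⟨c, hc⟩ := hker w h
    exact hgv c hc
  set X : P1 k := Projectivization.mk k w hw0 with hX
  have hgX : (⟨g, hg⟩ : G) • L₀ = X := smul_mk_eq g v hv hw0
  have hXL : X ≠ L₀ := by
    intro h
    obtain ⟨c, hc⟩ := (mk_eq_mk_iff_exists v w hv hw0).1 h
    exact hgv c hc
  -- `u` fixes `L₀`
  have huL : u • L₀ = L₀ := by
    refine (smul_mk_eq_iff (u : GL (Fin 2) k) v hv).2 ⟨1, ?_⟩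
    rw [Matrix.sub_mulVec, Matrix.one_mulVec, sub_eq_zero] at hνv
    rw [hνv, one_smul]
  have hupL : ∀ t : ℕ, (u ^ t) • L₀ = L₀ := by
    intro t
    induction t with
    | zero => simp
    | succ t ih => rw [pow_succ, mul_smul, huL, ih]
  have hfix : ∀ d : ℕ, (u ^ d) • X = X → l ∣ d := by
    intro d hd
    obtain ⟨c, hc⟩ := (smul_mk_eq_iff ((u ^ d : G) : GL (Fin 2) k) w hw0).1 hd
    rw [Subgroup.coe_pow, Units.val_pow_eq_pow_val] at hc
    exact index_dvd_of_fix l _ h2 w hνw d c hc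
  have hkey : ∀ s t : ℕ, s ≤ t → t < l → (u ^ s) • X = (u ^ t) • X → s = t := by
    intro s t hst ht h
    obtain ⟨d, rfl⟩ := Nat.exists_eq_add_of_le hst
    rw [pow_add, mul_smul] at h
    have h1 := hfix d (smul_left_cancel _ h).symm
    have h3 : d = 0 := Nat.eq_zero_of_dvd_of_lt h1 (by omega)
    omega
  -- the `l + 1` points
  let F : Finset (P1 k) := insert L₀ ((Finset.range l).image fun t => (u ^ t) • X)
  have hFcard : F.card = l + 1 := by
    rw [Finset.card_insert_of_notMem, Finset.card_image_of_injOn, Finset.card_range]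
    · intro s hs t ht h
      have hs' : s < l := Finset.mem_range.1 hs
      have ht' : t < l := Finset.mem_range.1 ht
      rcases le_total s t with hst | hst
      · exact hkey s t hst ht' h
      · exact (hkey t s hst hs' h.symm).symm
    · intro h
      obtain ⟨t, -, ht⟩ := Finset.mem_image.1 h
      rw [← hupL t] at ht
      exact hXL (smul_left_cancel _ ht)
  have hFsub : (F : Set (P1 k)) ⊆ MulAction.orbit G L₀ := by
    intro x hx
    rcases Finset.mem_insert.1 (Finset.mem_coe.1 hx) with rfl | hx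
    · exact MulAction.mem_orbit_self _
    · obtain ⟨t, -, rfl⟩ := Finset.mem_image.1 hx
      rw [← hgX, ← mul_smul]
      exact MulAction.mem_orbit _ _
  have horb : l + 1 ≤ (MulAction.orbit G L₀).ncard := by
    rw [← hFcard, ← Set.ncard_coe_finset]
    exact Set.ncard_le_ncard hFsub (Set.finite_range _)
  rw [← Subgroup.index_mul_card (MulAction.stabilizer G L₀), MulAction.index_stabilizer]
  exact Nat.mul_le_mul_right _ horb

end Fermat.Agent.S48.GT
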