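import Fermat.Agent.S48.GT.Coset
import Fermat.Agent.S48.GT.Index

/-!
# S48 / GT / CaseA : the characteristic divides `|G|`
-/

namespace Fermat.Agent.S48.GT

open Matrix
open scoped LinearAlgebra.Projectivization MatrixGroups

universe u

variable {k : Type u} [Field k]

theorem caseA (l : ℕ) [Fact l.Prime] [CharP k l] (G : Subgroup (GL (Fin 2) k)) [Finite G]
    (hss : SS G) (hl : l ∣ Nat.card G) (H : Set G) (Y : Finset (k × k))
    (hY : ∀ h ∈ H, td (h : GL (Fin 2) k) ∈ Y) :
    l * (l + 1) * H.ncard ≤ (l + (l + 1) * Y.card) * Nat.card G := by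
  obtain ⟨u, hu, h0, h2⟩ := exists_unipotent l G hl
  obtain ⟨v, hv, hνv, hker, htr⟩ := exists_line_of_sq_zero _ h0 h2
  set S : Set G := (MulAction.stabilizer G (Projectivization.mk k v hv : P1 k) : Set G) with hS
  have hidx := succ_mul_card_stabilizer_le l G hss u h0 h2 v hv hνv hker
  have h4 : S.ncard = Nat.card (MulAction.stabilizer G (Projectivization.mk k v hv : P1 k)) := by
    rw [hS, ← Nat.card_coe_set_eq]; rfl
  have h1 : (H ∩ S).ncard ≤ S.ncard := Set.ncard_le_ncard Set.inter_subset_right (Set.toFinite _)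
  have h3 : l * (H \ S).ncard ≤ Y.card * Nat.card G := by
    refine mul_ncard_le l G u hu h2 (H \ S) Y (fun h hh => hY h hh.1) ?_
    intro h hh htr0
    apply hh.2
    rw [hS]
    show h • (Projectivization.mk k v hv : P1 k) = Projectivization.mk k v hv
    exact (smul_mk_eq_iff (h : GL (Fin 2) k) v hv).2 ((htr _).1 htr0)
  have h5 : (H ∩ S).ncard + (H \ S).ncard = H.ncard :=
    Set.ncard_inter_add_ncard_sdiff_eq_ncard H S (Set.toFinite _)
  rw [← h4] at hidx
  calc l * (l + 1) * H.ncard
      = l * ((l + 1) * (H ∩ S).ncard) + (l + 1) * (l * (H \ S).ncard) := by rw [← h5]; ring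
    _ ≤ l * ((l + 1) * S.ncard) + (l + 1) * (Y.card * Nat.card G) := by gcongr
    _ ≤ l * Nat.card G + (l + 1) * (Y.card * Nat.card G) := by gcongr
    _ = (l + (l + 1) * Y.card) * Nat.card G := by ring

end Fermat.Agent.S48.GT
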