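import Fermat.Agent.S48.GT.Burnside
import Fermat.Agent.S48.GT.Arith

/-!
# S48 / GT / CaseB : `|G|` prime to the characteristic
-/

namespace Fermat.Agent.S48.GT

open Matrix
open scoped LinearAlgebra.Projectivization MatrixGroups

universe u

variable {k : Type u} [Field k]

theorem class_eq [IsAlgClosed k] (G : Subgroup (GL (Fin 2) k)) [Finite G]
    (hl : ((Nat.card G : ℕ) : k) ≠ 0) :
    Nat.card G ≤ 60 * Nat.card (Zs G) ∨
      ∃ L : P1 k, Nat.card G ≤ 2 * Nat.card (MulAction.stabilizer G L) := by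
  obtain ⟨Ω, _, L, hL, heq⟩ := burnside G hl
  have key := arith (Ω := Ω) (Nat.card G) (Nat.card (Zs G))
    (fun ω => Nat.card (MulAction.stabilizer G (L ω))) Nat.card_pos Nat.card_pos
    (Subgroup.card_subgroup_dvd_card _)
    (fun ω => Subgroup.card_dvd_of_le (Zs_le_stabilizer G (L ω)))
    (fun ω => Subgroup.card_subgroup_dvd_card _)
    (fun ω => by
      obtain ⟨g, hg1, hg2⟩ := hL ω
      have hlt : Zs G < MulAction.stabilizer G (L ω) :=
        lt_of_le_of_ne (Zs_le_stabilizer G (L ω)) (fun h => hg2 (h ▸ hg1))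
      have : (Zs G : Set G) ⊂ (MulAction.stabilizer G (L ω) : Set G) := hlt
      have h2 := Set.ncard_lt_ncard this (Set.toFinite _)
      rw [← Nat.card_coe_set_eq, ← Nat.card_coe_set_eq] at h2
      exact h2)
    heq
  rcases key with h | ⟨ω, h⟩
  · exact Or.inl h
  · exact Or.inr ⟨L ω, h⟩

theorem caseB [IsAlgClosed k] (G : Subgroup (GL (Fin 2) k)) [Finite G]
    (hl : ((Nat.card G : ℕ) : k) ≠ 0) (e : ℕ) (he : 0 < e)
    (hdet : ∀ g ∈ G, (g : Matrix (Fin 2) (Fin 2) k).det ^ e = 1)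
    (H : Set G) (Y : Finset (k × k)) (hY : ∀ h ∈ H, td (h : GL (Fin 2) k) ∈ Y) :
    Nat.card G ≤ 120 * e ∨ 2 * H.ncard ≤ 4 * Y.card + Nat.card G := by
  rcases class_eq G hl with h | ⟨L, h⟩
  · left
    have := card_Zs_le G e he hdet
    omega
  · right
    set S : Set G := (MulAction.stabilizer G L : Set G) with hS
    have h1 : (H ∩ S).ncard ≤ 2 * Y.card := ncard_inter_stabilizer_le G hl L H Y hY
    have h2 : (H \ S).ncard ≤ (Sᶜ).ncard :=
      Set.ncard_le_ncard (fun x hx => hx.2) (Set.toFinite _)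
    have h3 : S.ncard + (Sᶜ).ncard = Nat.card G := Set.ncard_add_ncard_compl S
    have h4 : S.ncard = Nat.card (MulAction.stabilizer G L) := by
      rw [hS, ← Nat.card_coe_set_eq]; rfl
    have h5 : (H ∩ S).ncard + (H \ S).ncard = H.ncard := Set.ncard_inter_add_ncard_sdiff_eq_ncard H S (Set.toFinite _)
    omega

end Fermat.Agent.S48.GT
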