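import Fermat.Agent.S48.GT.Eig

/-!
# S48 / GT / Chi : the ratio character on the stabiliser of a line

`L = mk v`, `S = Stab_G(L)`.  For `g ∈ S`, `g v = χ(g) v` (`smul_mk_eq_iff`), `χ` is multiplicative
(explicitly `χ g = (g v) i / v i` for a coordinate with `v i ≠ 0`), the eigenvalues of `g` are
`χ g` and `det g / χ g` (`Eig.of_eigenvec`), and `ρ g = χ(g)² / det g`.
-/

namespace Fermat.Agent.S48.GT

open Matrix
open scoped LinearAlgebra.Projectivization MatrixGroups

universe u

variable {k : Type u} [Field k]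

theorem exists_ratioHom (G : Subgroup (GL (Fin 2) k)) (L : P1 k) :
    ∃ ρ : MulAction.stabilizer G L →* kˣ, ∀ g : MulAction.stabilizer G L,
      ∃ a b : k, Eig ((g : G) : GL (Fin 2) k) a b ∧ a / b = (ρ g : k) := by
  induction L using Projectivization.ind with
  | h v hv =>
  obtain ⟨i, hi⟩ : ∃ i, v i ≠ 0 := Function.ne_iff.1 hv
  have key : ∀ g : MulAction.stabilizer G (Projectivization.mk k v hv : P1 k),
      (((g : G) : GL (Fin 2) k) : Matrix (Fin 2) (Fin 2) k) *ᵥ v =
        (((((g : G) : GL (Fin 2) k) : Matrix (Fin 2) (Fin 2) k) *ᵥ v) i / v i) • v := by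
    intro g
    have hg : ((g : G) : GL (Fin 2) k) • (Projectivization.mk k v hv : P1 k) =
        Projectivization.mk k v hv := g.2
    obtain ⟨c, hc⟩ := (smul_mk_eq_iff _ v hv).1 hg
    rw [hc, Pi.smul_apply, smul_eq_mul, mul_div_cancel_right₀ _ hi]
  let χ : MulAction.stabilizer G (Projectivization.mk k v hv : P1 k) →* k :=
    { toFun := fun g => ((((g : G) : GL (Fin 2) k) : Matrix (Fin 2) (Fin 2) k) *ᵥ v) i / v i
      map_one' := by
        simp [hi]
      map_mul' := fun g h => by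
        have h1 : ((((g * h : MulAction.stabilizer G (Projectivization.mk k v hv : P1 k)) : G) :
            GL (Fin 2) k) : Matrix (Fin 2) (Fin 2) k) =
            (((g : G) : GL (Fin 2) k) : Matrix (Fin 2) (Fin 2) k) *
              (((h : G) : GL (Fin 2) k) : Matrix (Fin 2) (Fin 2) k) := rfl
        rw [h1, ← Matrix.mulVec_mulVec]
        conv_lhs => rw [key h, Matrix.mulVec_smul, Pi.smul_apply, smul_eq_mul]
        ring }
  have hχ : ∀ g, χ g = ((((g : G) : GL (Fin 2) k) : Matrix (Fin 2) (Fin 2) k) *ᵥ v) i / v i :=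
    fun _ => rfl
  let δ : MulAction.stabilizer G (Projectivization.mk k v hv : P1 k) →* kˣ :=
    (Matrix.GeneralLinearGroup.det).comp (G.subtype.comp (Subgroup.subtype _))
  have hδ : ∀ g, ((δ g : kˣ) : k) = (((g : G) : GL (Fin 2) k) : Matrix (Fin 2) (Fin 2) k).det :=
    fun _ => rfl
  refine ⟨χ.toHomUnits * χ.toHomUnits * δ⁻¹, fun g => ?_⟩
  obtain ⟨h0, hE⟩ := Eig.of_eigenvec ((g : G) : GL (Fin 2) k) (χ g) v hv (key g)
  refine ⟨_, _, hE, ?_⟩
  rw [MonoidHom.mul_apply, MonoidHom.mul_apply, MonoidHom.inv_apply, Units.val_mul, Units.val_mul,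
    Units.val_inv_eq_inv_val, MonoidHom.coe_toHomUnits, hδ]
  have hd : (((g : G) : GL (Fin 2) k) : Matrix (Fin 2) (Fin 2) k).det ≠ 0 := by
    rw [← hδ]; exact Units.ne_zero _
  field_simp

end Fermat.Agent.S48.GT
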