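import Fermat.Agent.S48.GT.Unip

/-!
# S48 / GT / Coset : on a coset `h ⟨u⟩` with `tr (h ν) ≠ 0` the `l` traces are distinct

`tr (h u ^ t) = tr h + t tr (h ν)`, `det (h u ^ t) = det h`.  So
`H → (G ⧸ ⟨u⟩) × Y`, `h ↦ (h ⟨u⟩, td h)` is injective, and `|G ⧸ ⟨u⟩| = |G| / l`.
-/

namespace Fermat.Agent.S48.GT

open Matrix
open scoped LinearAlgebra.Projectivization MatrixGroups

universe u

variable {k : Type u} [Field k]

theorem mul_ncard_le (l : ℕ) [Fact l.Prime] [CharP k l] (G : Subgroup (GL (Fin 2) k)) [Finite G]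
    (u : G) (hu : orderOf u = l)
    (h2 : (((u : GL (Fin 2) k) : Matrix (Fin 2) (Fin 2) k) - 1) *
        (((u : GL (Fin 2) k) : Matrix (Fin 2) (Fin 2) k) - 1) = 0)
    (H : Set G) (Y : Finset (k × k)) (hY : ∀ h ∈ H, td (h : GL (Fin 2) k) ∈ Y)
    (hH : ∀ h ∈ H, (((h : GL (Fin 2) k) : Matrix (Fin 2) (Fin 2) k) *
        (((u : GL (Fin 2) k) : Matrix (Fin 2) (Fin 2) k) - 1)).trace ≠ 0) :
    l * H.ncard ≤ Y.card * Nat.card G := by
  set C : Subgroup G := Subgroup.zpowers u with hC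
  have hCcard : Nat.card C = l := by rw [hC, Nat.card_zpowers, hu]
  have hinj : Set.InjOn (fun h : G => ((h : G ⧸ C), td (h : GL (Fin 2) k))) H := by
    intro h hh h' hh' heq
    have e1 : ((h : G ⧸ C)) = (h' : G ⧸ C) := congrArg Prod.fst heq
    have e2 : td (h : GL (Fin 2) k) = td (h' : GL (Fin 2) k) := congrArg Prod.snd heq
    rw [QuotientGroup.eq] at e1
    have e3 : h⁻¹ * h' ∈ Submonoid.powers u := (mem_powers_iff_mem_zpowers).mpr e1
    obtain ⟨t, ht⟩ := e3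
    have ht' : u ^ t = h⁻¹ * h' := ht
    have h'_eq : h' = h * u ^ t := by rw [ht', mul_inv_cancel_left]
    have e4 : ((h' : GL (Fin 2) k) : Matrix (Fin 2) (Fin 2) k) =
        ((h : GL (Fin 2) k) : Matrix (Fin 2) (Fin 2) k) *
          (1 + (t : k) • (((u : GL (Fin 2) k) : Matrix (Fin 2) (Fin 2) k) - 1)) := by
      rw [← pow_eq_of_sq_zero _ h2 t, h'_eq]
      simp
    have e5 := congrArg Prod.fst e2
    simp only [td] at e5
    rw [e4, mul_add, mul_one, Matrix.mul_smul, Matrix.trace_add, Matrix.trace_smul,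
      left_eq_add, smul_eq_mul] at e5
    have e6 : (t : k) = 0 := (mul_eq_zero.mp e5).resolve_right (hH h hh)
    have e7 : l ∣ t := (CharP.cast_eq_zero_iff k l t).mp e6
    have e8 : u ^ t = 1 := by
      rw [← hu] at e7
      exact orderOf_dvd_iff_pow_eq_one.mp e7
    rw [h'_eq, e8, mul_one]
  have hle : H.ncard ≤ ((Set.univ : Set (G ⧸ C)) ×ˢ (Y : Set (k × k))).ncard :=
    Set.ncard_le_ncard_of_injOn _ (fun h hh => ⟨Set.mem_univ _, hY h hh⟩) hinj (Set.toFinite _)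
  rw [Set.ncard_prod, Set.ncard_univ, Set.ncard_coe_finset] at hle
  have hidx : Nat.card G = Nat.card (G ⧸ C) * Nat.card C :=
    Subgroup.card_eq_card_quotient_mul_card_subgroup C
  calc l * H.ncard ≤ l * (Nat.card (G ⧸ C) * Y.card) := Nat.mul_le_mul_left _ hle
    _ = Y.card * (Nat.card (G ⧸ C) * l) := by ring
    _ = Y.card * Nat.card G := by rw [hidx, hCcard]

end Fermat.Agent.S48.GT
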