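import Mathlib

/-!
# S48 / GT : finite subgroups of `GL₂(k)` with few characteristic polynomials

Definitions.  `k` is a field, `G ≤ GL₂(k)` a finite subgroup.
-/

namespace Fermat.Agent.S48.GT

open Matrix
open scoped LinearAlgebra.Projectivization MatrixGroups

universe u

variable {k : Type u} [Field k]

/-- The projective line over `k`, with its `GL₂(k)`-action (Mathlib). -/
abbrev P1 (k : Type u) [Field k] := ℙ k (Fin 2 → k)

/-- `g` is a scalar matrix. -/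
def IsSc (g : GL (Fin 2) k) : Prop :=
  ∃ c : k, (g : Matrix (Fin 2) (Fin 2) k) = c • (1 : Matrix (Fin 2) (Fin 2) k)

/-- The pair (trace, determinant) of an element of `GL₂(k)`. -/
def td (g : GL (Fin 2) k) : k × k :=
  ((g : Matrix (Fin 2) (Fin 2) k).trace, (g : Matrix (Fin 2) (Fin 2) k).det)

/-- Semisimplicity of the tautological representation of `G ≤ GL₂(k)` on `k²`, in the only form
that is used: every `G`-stable line has a `G`-stable complement. -/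
def SS (G : Subgroup (GL (Fin 2) k)) : Prop :=
  ∀ v : Fin 2 → k, v ≠ 0 →
    (∀ g ∈ G, ∃ c : k, (g : Matrix (Fin 2) (Fin 2) k) *ᵥ v = c • v) →
    ∃ w : Fin 2 → k, (∀ c : k, w ≠ c • v) ∧
      ∀ g ∈ G, ∃ c : k, (g : Matrix (Fin 2) (Fin 2) k) *ᵥ w = c • w

lemma IsSc.one : IsSc (1 : GL (Fin 2) k) := ⟨1, by simp⟩

lemma IsSc.mul {g h : GL (Fin 2) k} (hg : IsSc g) (hh : IsSc h) : IsSc (g * h) := by
  obtain ⟨a, ha⟩ := hg
  obtain ⟨b, hb⟩ := hh
  exact ⟨a * b, by simp [ha, hb, smul_smul, mul_comm]⟩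

lemma IsSc.inv {g : GL (Fin 2) k} (hg : IsSc g) : IsSc g⁻¹ := by
  obtain ⟨a, ha⟩ := hg
  refine ⟨a⁻¹, ?_⟩
  have ha0 : a ≠ 0 := by
    rintro rfl
    have h1 : (g : Matrix (Fin 2) (Fin 2) k) = 0 := by rw [ha, zero_smul]
    have h2 := g.mul_inv
    rw [h1, zero_mul] at h2
    exact zero_ne_one h2
  have h3 : (g : Matrix (Fin 2) (Fin 2) k) * (a⁻¹ • (1 : Matrix (Fin 2) (Fin 2) k)) = 1 := by
    rw [ha]; simp [smul_smul, ha0]
  have h4 : ((g⁻¹ : GL (Fin 2) k) : Matrix (Fin 2) (Fin 2) k) * (g : Matrix (Fin 2) (Fin 2) k) = 1 :=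
    g.inv_mul
  calc ((g⁻¹ : GL (Fin 2) k) : Matrix (Fin 2) (Fin 2) k)
      = ((g⁻¹ : GL (Fin 2) k) : Matrix (Fin 2) (Fin 2) k) *
          ((g : Matrix (Fin 2) (Fin 2) k) * (a⁻¹ • (1 : Matrix (Fin 2) (Fin 2) k))) := by
        rw [h3, mul_one]
    _ = a⁻¹ • (1 : Matrix (Fin 2) (Fin 2) k) := by rw [← mul_assoc, h4, one_mul]

/-- The subgroup of scalar matrices of `G`. -/
def Zs (G : Subgroup (GL (Fin 2) k)) : Subgroup G where
  carrier := {g | IsSc (g : GL (Fin 2) k)}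
  one_mem' := IsSc.one
  mul_mem' := fun ha hb => IsSc.mul ha hb
  inv_mem' := fun ha => IsSc.inv ha

lemma mem_Zs {G : Subgroup (GL (Fin 2) k)} {g : G} : g ∈ Zs G ↔ IsSc (g : GL (Fin 2) k) := Iff.rfl

end Fermat.Agent.S48.GT
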