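import Fermat.Agent.S48.GT.Mat

/-!
# S48 / GT / Eig : eigenvalue pairs of elements of `GL₂(k)` (route 48, (A) + (F) of board #1262)

`Eig g a b` : the characteristic polynomial of `g` is `(X - a)(X - b)`.
`PW m g`    : the eigenvalues satisfy `a ^ m = b ^ m`   (the set `W` of (F)).
`SD d g`    : the ratio of the eigenvalues has exact order `d`   (the set `S_d` of (A)).
-/

namespace Fermat.Agent.S48.GT

open Matrix
open scoped LinearAlgebra.Projectivization MatrixGroups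

universe u

variable {k : Type u} [Field k]

/-- `a`, `b` are the eigenvalues of `g`: trace `= a + b`, det `= a b`. -/
def Eig (g : GL (Fin 2) k) (a b : k) : Prop :=
  (g : Matrix (Fin 2) (Fin 2) k).trace = a + b ∧ (g : Matrix (Fin 2) (Fin 2) k).det = a * b

/-- The eigenvalues `a, b` of `g` satisfy `a ^ m = b ^ m`. -/
def PW (m : ℕ) (g : GL (Fin 2) k) : Prop := ∃ a b : k, Eig g a b ∧ a ^ m = b ^ m

/-- The ratio of the eigenvalues of `g` has exact order `d`. -/
def SD (d : ℕ) (g : GL (Fin 2) k) : Prop := ∃ a b : k, Eig g a b ∧ orderOf (a / b) = d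

variable {g : GL (Fin 2) k} {a b : k}

lemma Eig.symm (h : Eig g a b) : Eig g b a := by
  exact ⟨by rw [h.1, add_comm], by rw [h.2, mul_comm]⟩

lemma Eig.ne_zero (h : Eig g a b) : a ≠ 0 ∧ b ≠ 0 := by
  have hd : (g : Matrix (Fin 2) (Fin 2) k).det ≠ 0 :=
    ((Matrix.isUnit_iff_isUnit_det _).1 g.isUnit).ne_zero
  rw [h.2] at hd
  exact ⟨left_ne_zero_of_mul hd, right_ne_zero_of_mul hd⟩

lemma exists_eig [IsAlgClosed k] (g : GL (Fin 2) k) : ∃ a b : k, Eig g a b := by
  obtain ⟨a, b, h1, h2⟩ := exists_roots (g : Matrix (Fin 2) (Fin 2) k).trace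
    (g : Matrix (Fin 2) (Fin 2) k).det
  exact ⟨a, b, h1, h2⟩

/-- `(X - a)(X - b) = (X - a')(X - b')`. -/
lemma Eig.unique {a' b' : k} (h : Eig g a b) (h' : Eig g a' b') :
    (a' = a ∧ b' = b) ∨ (a' = b ∧ b' = a) := by
  have h1 : a + b = a' + b' := h.1.symm.trans h'.1
  have h2 : a * b = a' * b' := h.2.symm.trans h'.2
  have h3 : (a' - a) * (a' - b) = 0 := by linear_combination h2 - a' * h1
  rcases mul_eq_zero.1 h3 with h4 | h4
  · left
    have : a' = a := sub_eq_zero.1 h4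
    exact ⟨this, by rw [this] at h1; exact (add_left_cancel h1).symm⟩
  · right
    have : a' = b := sub_eq_zero.1 h4
    exact ⟨this, by rw [this, add_comm] at h1; exact (add_left_cancel h1).symm⟩

lemma Eig.conj (h : Eig g a b) (x : GL (Fin 2) k) : Eig (x * g * x⁻¹) a b := by
  refine ⟨?_, ?_⟩
  · rw [Units.val_mul, Units.val_mul, Matrix.trace_units_conj]
    exact h.1
  · rw [Units.val_mul, Units.val_mul, Matrix.det_units_conj]
    exact h.2

/-- An eigenvalue `c` (with an eigenvector): the eigenvalues are `c` and `det g / c`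
(`eigen_root`). -/
lemma Eig.of_eigenvec (g : GL (Fin 2) k) (c : k) (v : Fin 2 → k) (hv : v ≠ 0)
    (h : (g : Matrix (Fin 2) (Fin 2) k) *ᵥ v = c • v) :
    c ≠ 0 ∧ Eig g c ((g : Matrix (Fin 2) (Fin 2) k).det / c) := by
  have hc : c ≠ 0 := by
    rintro rfl
    rw [zero_smul] at h
    exact mulVec_ne_zero g v hv h
  refine ⟨hc, ?_, ?_⟩
  · have := eigen_root (g : Matrix (Fin 2) (Fin 2) k) c v hv h
    field_simp
    linear_combination -this
  · field_simp

lemma Eig.not_isSc (h : Eig g a b) (hab : a ≠ b) : ¬ IsSc g := by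
  rintro ⟨c, hc⟩
  have h' : Eig g c c := by
    refine ⟨?_, ?_⟩
    · rw [hc, Matrix.trace_fin_two]; simp
    · rw [hc, Matrix.det_fin_two]; simp
  rcases h'.unique h with ⟨h1, h2⟩ | ⟨h1, h2⟩
  · exact hab (h1.trans h2.symm)
  · exact hab (h1.trans h2.symm)

/-- Eigenvalues of a power: induction with `sq_eq` (`tr (g ^ (j+2)) = t tr (g ^ (j+1)) - d tr (g ^ j)`). -/
lemma Eig.pow (h : Eig g a b) (j : ℕ) : Eig (g ^ j) (a ^ j) (b ^ j) := by
  obtain ⟨ht, hd⟩ := h
  refine ⟨?_, ?_⟩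
  · have key : ∀ j : ℕ, ((g : Matrix (Fin 2) (Fin 2) k) ^ j).trace = a ^ j + b ^ j ∧
        ((g : Matrix (Fin 2) (Fin 2) k) ^ (j + 1)).trace = a ^ (j + 1) + b ^ (j + 1) := by
      intro j
      induction j with
      | zero =>
        refine ⟨?_, ?_⟩
        · simp [Matrix.trace_one]
          norm_num
        · simpa using ht
      | succ j ih =>
        refine ⟨ih.2, ?_⟩
        have h1 : (g : Matrix (Fin 2) (Fin 2) k) ^ (j + 1 + 1) =
            (a + b) • (g : Matrix (Fin 2) (Fin 2) k) ^ (j + 1) -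
              (a * b) • (g : Matrix (Fin 2) (Fin 2) k) ^ j := by
          rw [pow_succ, pow_succ, mul_assoc, sq_eq, ht, hd, mul_sub, mul_smul_comm, mul_smul_comm,
            mul_one, ← pow_succ]
        rw [h1, Matrix.trace_sub, Matrix.trace_smul, Matrix.trace_smul, ih.1, ih.2]
        simp only [smul_eq_mul]
        ring
    rw [Units.val_pow_eq_pow_val]
    exact (key j).1
  · rw [Units.val_pow_eq_pow_val, Matrix.det_pow, hd, mul_pow]

lemma PW.conj {m : ℕ} (h : PW m g) (x : GL (Fin 2) k) : PW m (x * g * x⁻¹) := by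
  obtain ⟨a, b, hab, hm⟩ := h
  exact ⟨a, b, hab.conj x, hm⟩

lemma PW.pow {m : ℕ} (h : PW m g) (j : ℕ) : PW m (g ^ j) := by
  obtain ⟨a, b, hab, hm⟩ := h
  exact ⟨a ^ j, b ^ j, hab.pow j, by rw [← pow_mul, ← pow_mul, mul_comm, pow_mul, pow_mul, hm]⟩

lemma SD.conj {d : ℕ} (h : SD d g) (x : GL (Fin 2) k) : SD d (x * g * x⁻¹) := by
  obtain ⟨a, b, hab, hm⟩ := h
  exact ⟨a, b, hab.conj x, hm⟩

/-- `d ∣ orderOf g` (if `g ^ n = 1` then `a ^ n = b ^ n = 1` by `Eig.pow`, `Eig.unique`), so `j` is prime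
to `d` and `(a / b) ^ j` has order `d` again.  (If `orderOf g = 0` then `j = 1`.) -/
lemma SD.pow_coprime {d : ℕ} (h : SD d g) (j : ℕ) (hj : j.Coprime (orderOf g)) : SD d (g ^ j) := by
  obtain ⟨a, b, hab, hm⟩ := h
  refine ⟨a ^ j, b ^ j, hab.pow j, ?_⟩
  have h1 : Eig (1 : GL (Fin 2) k) (a ^ orderOf g) (b ^ orderOf g) := by
    have := hab.pow (orderOf g)
    rwa [pow_orderOf_eq_one] at this
  have h2 : Eig (1 : GL (Fin 2) k) 1 1 := by
    have := hab.pow 0
    simpa using this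
  have h3 : a ^ orderOf g = 1 ∧ b ^ orderOf g = 1 := by
    rcases h2.unique h1 with h | h
    · exact h
    · exact h
  have h4 : orderOf (a / b) ∣ orderOf g := by
    apply orderOf_dvd_of_pow_eq_one
    rw [div_pow, h3.1, h3.2, div_one]
  have h5 : (orderOf (a / b)).Coprime j := (Nat.Coprime.coprime_dvd_right h4 hj).symm
  rw [← div_pow, h5.orderOf_pow, hm]

/-- Scalars are in `W`. -/
lemma IsSc.pW (h : IsSc g) (m : ℕ) : PW m g := by
  obtain ⟨c, hc⟩ := h
  refine ⟨c, c, ⟨?_, ?_⟩, rfl⟩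
  · rw [hc, Matrix.trace_fin_two]
    simp
  · rw [hc, Matrix.det_fin_two]
    simp

lemma SD.not_isSc {d : ℕ} (hd : 2 ≤ d) (h : SD d g) : ¬ IsSc g := by
  obtain ⟨a, b, hab, hm⟩ := h
  refine hab.not_isSc ?_
  rintro rfl
  rw [div_self hab.ne_zero.1, orderOf_one] at hm
  omega

lemma SD.exists_ne {d : ℕ} (hd : 2 ≤ d) (h : SD d g) : ∃ a b : k, a ≠ b ∧ Eig g a b := by
  obtain ⟨a, b, hab, hm⟩ := h
  refine ⟨a, b, ?_, hab⟩
  rintro rfl
  rw [div_self hab.ne_zero.1, orderOf_one] at hm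
  omega

end Fermat.Agent.S48.GT
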