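import Fermat.Agent.S48.GT.Loc
import Fermat.Agent.S48.GT.DC

/-!
# S48 / GT / F1 : second half of (F) of board #1262, without any hypothesis on the characteristic

If more than `3/4` of the elements of `G` lie in `W = {g : a ^ m = b ^ m}` then `G = W`.

Proof.  Let `x ∈ G`, `x ∉ W`.  Its eigenvalues are distinct, let `L` be an eigenline
(`exists_eig`, `exists_eigenvec`, `smul_mk_eq_iff`), `O` the orbit of `L` (finite).  For `M = γ L ∈ O` the element
`γ x γ⁻¹ ∉ W` (`PW.conj`) fixes `M`, so `|Stab M| ≤ 2 #{g ∉ W : g M = M}` (`F1_loc`) and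
`|O| |Stab M| = |G|` (`orbit_sum_ge`).  Every `g ∉ W` is non-scalar (`IsSc.pW`), so
`∑_{M ∈ O} #{g ∉ W : g M = M} ≤ 2 |G - W|` (`dc_le` with `X = O`).  Hence `|G| ≤ 4 |G - W|`.
-/

namespace Fermat.Agent.S48.GT

open Matrix
open scoped LinearAlgebra.Projectivization MatrixGroups

universe u

variable {k : Type u} [Field k]

/-- Orbit–stabiliser in summed form: if `|Stab M| ≤ 2 f(M)` on the orbit `O` of `L` then
`|G| ≤ 2 ∑_{M ∈ O} f(M)`.
(`MulAction.card_orbit_mul_card_stabilizer_eq_card_group`, `MulAction.orbit_eq_iff`; the orbit is finite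
because `G` is.) -/
theorem orbit_sum_ge (G : Subgroup (GL (Fin 2) k)) [Finite G] (L : P1 k) (f : P1 k → ℕ)
    (hf : ∀ γ : G, Nat.card (MulAction.stabilizer G (γ • L)) ≤ 2 * f (γ • L)) :
    ∃ O : Finset (P1 k), Nat.card G ≤ 2 * ∑ M ∈ O, f M := by
  classical
  have hfin : (MulAction.orbit G L).Finite := Set.finite_range _
  refine ⟨hfin.toFinset, ?_⟩
  have hcard : (MulAction.orbit G L).ncard = hfin.toFinset.card := Set.ncard_eq_toFinset_card _ hfin
  have hpos : 0 < hfin.toFinset.card :=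
    Finset.card_pos.2 ⟨L, hfin.mem_toFinset.2 (MulAction.mem_orbit_self L)⟩
  have key : ∀ M ∈ hfin.toFinset, Nat.card G ≤ hfin.toFinset.card * (2 * f M) := by
    intro M hM
    obtain ⟨γ, rfl⟩ := hfin.mem_toFinset.1 hM
    have h1 := Subgroup.index_mul_card (MulAction.stabilizer G (γ • L))
    rw [MulAction.index_stabilizer, MulAction.orbit_smul, hcard] at h1
    rw [← h1]
    exact Nat.mul_le_mul_left _ (hf γ)
  have h2 : hfin.toFinset.card * Nat.card G ≤ hfin.toFinset.card * (2 * ∑ M ∈ hfin.toFinset, f M) := by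
    calc hfin.toFinset.card * Nat.card G = ∑ _M ∈ hfin.toFinset, Nat.card G := by
          rw [Finset.sum_const, smul_eq_mul]
      _ ≤ ∑ M ∈ hfin.toFinset, hfin.toFinset.card * (2 * f M) := Finset.sum_le_sum key
      _ = hfin.toFinset.card * (2 * ∑ M ∈ hfin.toFinset, f M) := by
          rw [← Finset.mul_sum, ← Finset.mul_sum]
  exact Nat.le_of_mul_le_mul_left h2 hpos

/-- An element outside `W` has an eigenline. -/
theorem exists_fixed_point [IsAlgClosed k] (g : GL (Fin 2) k) : ∃ L : P1 k, g • L = L := by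
  obtain ⟨a, b, htr, hdet⟩ := exists_eig g
  obtain ⟨v, hv, hgv⟩ := exists_eigenvec (g : Matrix (Fin 2) (Fin 2) k) a (by
    rw [htr, hdet]; ring)
  exact ⟨Projectivization.mk k v hv, (smul_mk_eq_iff g v hv).2 ⟨a, hgv⟩⟩

/-- **(F1)** -/
theorem F1 [IsAlgClosed k] (G : Subgroup (GL (Fin 2) k)) [Finite G] (m : ℕ)
    (hW : 3 * Nat.card G < 4 * {g : G | PW m (g : GL (Fin 2) k)}.ncard) (g : G) :
    PW m (g : GL (Fin 2) k) := by
  by_contra hx
  obtain ⟨L, hL⟩ := exists_fixed_point (g : GL (Fin 2) k)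
  obtain ⟨O, hO⟩ := orbit_sum_ge G L
    (fun M => {y : G | y • M = M ∧ y ∈ {y : G | ¬ PW m (y : GL (Fin 2) k)}}.ncard) (by
      intro γ
      refine F1_loc G m (γ • L) (γ * g * γ⁻¹) ?_ ?_
      · rw [mul_smul, mul_smul, inv_smul_smul]
        congr 1
      · intro h
        apply hx
        have := PW.conj h ((γ⁻¹ : G) : GL (Fin 2) k)
        simpa [mul_assoc] using this)
  have h2 := dc_le G O {y : G | ¬ PW m (y : GL (Fin 2) k)} (fun y hy hs => hy (IsSc.pW hs m))
  have h3 : {y : G | PW m (y : GL (Fin 2) k)}.ncard + {y : G | ¬ PW m (y : GL (Fin 2) k)}.ncard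
      = Nat.card G := Set.ncard_add_ncard_compl {y : G | PW m (y : GL (Fin 2) k)}
  omega

end Fermat.Agent.S48.GT
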