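import Fermat.Agent.S48.GT.Eig
import Fermat.Agent.S48.GT.Index

/-!
# S48 / GT / F2 : first half of (F) of board #1262

`G` semisimple in characteristic `l`, all elements in `W = {a ^ m = b ^ m}`, `l > 2 m`  ⟹  `l ∤ |G|`.

Proof.  Otherwise `exists_unipotent` gives `u`, `ν = u - 1`, `exists_line_of_sq_zero` gives `v`,
`index_exists_not_stable` gives `h ∈ G` with `h v ∉ k v`, i.e. `c = tr (h ν) ≠ 0`.
`tr (h u ^ t) = τ + t c` (`pow_eq_of_sq_zero`), `det (h u ^ t) = δ` (`det u = 1`: `Eig`-free: `det u ^ l = 1` in characteristic `l`, or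
`det (1 + ν) = 1 + tr ν + det ν` with `tr ν = det ν = 0`).  Apply `few_traces`.
-/

namespace Fermat.Agent.S48.GT

open Matrix
open scoped LinearAlgebra.Projectivization MatrixGroups

universe u

variable {k : Type u} [Field k]

/-- Pure field lemma.  If for all `t < l` there are `a, b` with `a + b = τ + t c`, `a b = δ ≠ 0`,
`a ^ m = b ^ m`, and `c ≠ 0`, `m > 0`, then `l ≤ 2 m`.
Proof: `z = a / b` is an `m`-th root of unity (at most `m` of them, `Polynomial.card_nthRoots`) and
`(τ + t c)² z = δ (z + 1)²`.  For given `z` the value `(τ + t c)²` is determined, so `τ + t c` takes at most two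
values, and `t ↦ τ + t c` is injective on `t < l` (`CharP.cast_eq_zero_iff`/`CharP.natCast_injOn_Iio`).
`Finset.card_le_mul_card_image`. -/
theorem few_traces (l : ℕ) [Fact l.Prime] [CharP k l] (m : ℕ) (hm : 0 < m) (τ c δ : k)
    (hc : c ≠ 0) (hδ : δ ≠ 0)
    (h : ∀ t : ℕ, t < l → ∃ a b : k, a + b = τ + (t : k) * c ∧ a * b = δ ∧ a ^ m = b ^ m) :
    l ≤ 2 * m := by
  classical
  -- choose the ratio
  have h' : ∀ t : ℕ, ∃ z : k, t < l → z ^ m = 1 ∧ (τ + (t : k) * c) ^ 2 * z = δ * (z + 1) ^ 2 := by
    intro t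
    by_cases ht : t < l
    · obtain ⟨a, b, h1, h2, h3⟩ := h t ht
      have hb : b ≠ 0 := by
        rintro rfl
        exact hδ (by rw [← h2, mul_zero])
      refine ⟨a / b, fun _ => ⟨by rw [div_pow, h3, div_self (pow_ne_zero _ hb)], ?_⟩⟩
      rw [← h1, ← h2]
      field_simp
    · exact ⟨0, fun h => absurd h ht⟩
  choose f hf using h'
  have himg : ((Finset.range l).image f) ⊆ (Polynomial.nthRoots m (1 : k)).toFinset := by
    intro z hz
    obtain ⟨t, ht, rfl⟩ := Finset.mem_image.1 hz
    rw [Multiset.mem_toFinset, Polynomial.mem_nthRoots hm]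
    exact (hf t (Finset.mem_range.1 ht)).1
  have hcard : ((Finset.range l).image f).card ≤ m := by
    refine (Finset.card_le_card himg).trans ?_
    exact (Multiset.toFinset_card_le _).trans (Polynomial.card_nthRoots m 1)
  have hinj : ∀ s t : ℕ, s < l → t < l → τ + (s : k) * c = τ + (t : k) * c → s = t := by
    intro s t hs ht hst
    have h1 : (s : k) = (t : k) := mul_right_cancel₀ hc (add_left_cancel hst)
    exact CharP.natCast_injOn_Iio k l (Set.mem_Iio.2 hs) (Set.mem_Iio.2 ht) h1
  have hfib : ∀ z ∈ (Finset.range l).image f, ((Finset.range l).filter (fun t => f t = z)).card ≤ 2 := by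
    intro z _
    by_contra hcon
    push Not at hcon
    obtain ⟨t1, h1, t2, h2, t3, h3, h12, h13, h23⟩ := Finset.two_lt_card.1 hcon
    rw [Finset.mem_filter, Finset.mem_range] at h1 h2 h3
    have e1 := (hf t1 h1.1).2
    have e2 := (hf t2 h2.1).2
    have e3 := (hf t3 h3.1).2
    have hz : z ≠ 0 := by
      rintro rfl
      have := (hf t1 h1.1).1
      rw [h1.2, zero_pow hm.ne'] at this
      exact zero_ne_one this
    rw [h1.2] at e1
    rw [h2.2] at e2
    rw [h3.2] at e3
    set s1 := τ + (t1 : k) * c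
    set s2 := τ + (t2 : k) * c
    set s3 := τ + (t3 : k) * c
    have n12 : s1 ≠ s2 := fun hh => h12 (hinj _ _ h1.1 h2.1 hh)
    have n13 : s1 ≠ s3 := fun hh => h13 (hinj _ _ h1.1 h3.1 hh)
    have n23 : s2 ≠ s3 := fun hh => h23 (hinj _ _ h2.1 h3.1 hh)
    have q12 : s1 ^ 2 = s2 ^ 2 := mul_right_cancel₀ hz (e1.trans e2.symm)
    have q13 : s1 ^ 2 = s3 ^ 2 := mul_right_cancel₀ hz (e1.trans e3.symm)
    have p12 : s1 + s2 = 0 := by
      have : (s1 - s2) * (s1 + s2) = 0 := by linear_combination q12
      exact (mul_eq_zero.1 this).resolve_left (sub_ne_zero.2 n12)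
    have p13 : s1 + s3 = 0 := by
      have : (s1 - s3) * (s1 + s3) = 0 := by linear_combination q13
      exact (mul_eq_zero.1 this).resolve_left (sub_ne_zero.2 n13)
    exact n23 (by linear_combination p12 - p13)
  have := Finset.card_le_mul_card_image (Finset.range l) 2 hfib
  rw [Finset.card_range] at this
  omega

/-- trace and determinant on the coset `h ⟨u⟩`. -/
theorem trace_det_mul_pow (h u : Matrix (Fin 2) (Fin 2) k) (h2 : (u - 1) * (u - 1) = 0) (t : ℕ) :
    (h * u ^ t).trace = h.trace + (t : k) * (h * (u - 1)).trace ∧ (h * u ^ t).det = h.det := by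
  constructor
  · rw [pow_eq_of_sq_zero u h2 t, mul_add, mul_one, Matrix.mul_smul, Matrix.trace_add,
      Matrix.trace_smul, smul_eq_mul]
  · have hdet : u.det = 1 := by
      have e00 := congrFun (congrFun h2 0) 0
      have e01 := congrFun (congrFun h2 0) 1
      have e10 := congrFun (congrFun h2 1) 0
      have e11 := congrFun (congrFun h2 1) 1
      simp only [Matrix.mul_apply, Fin.sum_univ_two, Matrix.sub_apply, Matrix.one_apply_eq,
        Matrix.zero_apply, ne_eq, zero_ne_one, one_ne_zero, not_false_eq_true,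
        Matrix.one_apply_ne, sub_zero] at e00 e01 e10 e11
      rw [Matrix.det_fin_two]
      set p := u 0 0 - 1 with hp
      set s := u 1 1 - 1 with hs
      have hps : p + s = 0 := by
        by_contra hne
        have hq : u 0 1 = 0 := by
          have : u 0 1 * (p + s) = 0 := by linear_combination e01
          exact (mul_eq_zero.1 this).resolve_right hne
        have hp0 : p = 0 := by
          have : p * p = 0 := by rw [hq] at e00; linear_combination e00
          exact mul_self_eq_zero.1 this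
        have hs0 : s = 0 := by
          have : s * s = 0 := by rw [hq] at e11; linear_combination e11
          exact mul_self_eq_zero.1 this
        exact hne (by rw [hp0, hs0, add_zero])
      have h00 : u 0 0 = 1 + p := by rw [hp]; ring
      have h11 : u 1 1 = 1 + s := by rw [hs]; ring
      rw [h00, h11]
      have hs' : s = -p := by linear_combination hps
      rw [hs']
      linear_combination -e00
    rw [Matrix.det_mul, Matrix.det_pow, hdet, one_pow, mul_one]

/-- **(F2)** -/
theorem F2 (l : ℕ) [Fact l.Prime] [CharP k l] (G : Subgroup (GL (Fin 2) k)) [Finite G]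
    (hss : SS G) (m : ℕ) (hm : 0 < m) (hl : 2 * m < l)
    (hW : ∀ g : G, PW m (g : GL (Fin 2) k)) : ¬ l ∣ Nat.card G := by
  intro hd
  obtain ⟨u, -, h0, h2⟩ := exists_unipotent l G hd
  obtain ⟨v, hv, -, hker, htr⟩ := exists_line_of_sq_zero _ h0 h2
  obtain ⟨h, hhG, hh⟩ := index_exists_not_stable G hss u h2 v hv hker
  have hc : ((h : Matrix (Fin 2) (Fin 2) k) *
      (((u : GL (Fin 2) k) : Matrix (Fin 2) (Fin 2) k) - 1)).trace ≠ 0 := by
    intro h0'
    obtain ⟨c, hc⟩ := (htr _).1 h0'
    exact hh c hc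
  have hδ : (h : Matrix (Fin 2) (Fin 2) k).det ≠ 0 := by
    have := (Matrix.isUnit_iff_isUnit_det _).1 h.isUnit
    exact this.ne_zero
  have := few_traces l m hm _ _ _ hc hδ (fun t _ => by
    obtain ⟨a, b, ⟨e1, e2⟩, e3⟩ := hW (⟨h, hhG⟩ * u ^ t)
    obtain ⟨f1, f2⟩ := trace_det_mul_pow (h : Matrix (Fin 2) (Fin 2) k)
      ((u : GL (Fin 2) k) : Matrix (Fin 2) (Fin 2) k) h2 t
    refine ⟨a, b, ?_, ?_, e3⟩
    · rw [← e1, ← f1]; simp
    · rw [← e2, ← f2]; simp)
  omega

end Fermat.Agent.S48.GT
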