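import Fermat.Agent.S48.Defs
import Fermat.Agent.S48.GT.A
import Fermat.Agent.S48.GT.F1
import Fermat.Agent.S48.GT.F2

/-!
# S48 / GT / Export : (A) + (F) of board #1262 in the vocabulary of `S48/Defs.lean`

* `A_bound`  : `|S_d| (d - 1) ≤ φ(d) |G|`
* `F1`       : `|W| > 3/4 |G|  ⟹  G = W`      (no hypothesis on the characteristic, no semisimplicity)
* `F2`       : `G` semisimple, `G = W(m)`, `l > 2 m`  ⟹  `l ∤ |G|`
* `isDivStable_PW`, `isDivStable_SD` : `W`, `S_d` are unions of divisions
* `SS_range` : `IsSS r → SS r.range`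
-/

namespace Fermat.Agent.S48.GT

open Matrix
open scoped LinearAlgebra.Projectivization MatrixGroups

variable {k : Type} [Field k]

theorem isDivStable_PW (G : Subgroup (GL (Fin 2) k)) (m : ℕ) :
    IsDivStable {g : G | PW m (g : GL (Fin 2) k)} := by
  refine ⟨fun g h hh => ?_, fun h j hh _ => ?_⟩
  · exact PW.conj hh (g : GL (Fin 2) k)
  · exact PW.pow hh j

theorem isDivStable_SD (G : Subgroup (GL (Fin 2) k)) (d : ℕ) :
    IsDivStable {g : G | SD d (g : GL (Fin 2) k)} := by
  refine ⟨fun g h hh => ?_, fun h j hh hj => ?_⟩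
  · exact SD.conj hh (g : GL (Fin 2) k)
  · refine SD.pow_coprime hh j ?_
    rwa [Subgroup.orderOf_coe]

/-- `IsSS r` (irreducible or diagonal) implies `SS` for the image. -/
theorem SS_range {Γ : Type} [Group Γ] (r : Γ →* GL (Fin 2) k) (h : IsSS r) : SS r.range := by
  intro v hv hst
  rcases h with h | h
  · exfalso
    have h1 := h (k ∙ v) (by
      intro g x hx
      obtain ⟨a, rfl⟩ := Submodule.mem_span_singleton.1 hx
      obtain ⟨c, hc⟩ := hst (r g) ⟨g, rfl⟩
      rw [Matrix.mulVec_smul, hc]
      exact Submodule.smul_mem _ _ (Submodule.smul_mem _ _ (Submodule.mem_span_singleton_self v)))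
    rcases h1 with h1 | h1
    · exact hv (by simpa using h1)
    · have h2 : Module.finrank k (k ∙ v) = 1 := finrank_span_singleton hv
      rw [h1, finrank_top] at h2
      simp at h2
  · by_cases hv1 : v 1 = 0
    · -- v ∈ k e_0, take w = e_1
      refine ⟨![0, 1], fun c hc => ?_, ?_⟩
      · have := congrFun hc 1
        simp [hv1] at this
      · rintro _ ⟨g, rfl⟩
        refine ⟨((r g : GL (Fin 2) k) : Matrix (Fin 2) (Fin 2) k) 1 1, ?_⟩
        ext i
        fin_cases i
        · simp [Matrix.mulVec, dotProduct, Fin.sum_univ_two, (h g).1]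
        · simp [Matrix.mulVec, dotProduct, Fin.sum_univ_two]
    · refine ⟨![1, 0], fun c hc => ?_, ?_⟩
      · have h1 := congrFun hc 1
        have h0 := congrFun hc 0
        simp at h1 h0
        rcases h1 with h1 | h1
        · rw [h1] at h0; simp at h0
        · exact hv1 h1
      · rintro _ ⟨g, rfl⟩
        refine ⟨((r g : GL (Fin 2) k) : Matrix (Fin 2) (Fin 2) k) 0 0, ?_⟩
        ext i
        fin_cases i
        · simp [Matrix.mulVec, dotProduct, Fin.sum_univ_two]
        · simp [Matrix.mulVec, dotProduct, Fin.sum_univ_two, (h g).2]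


end Fermat.Agent.S48.GT
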