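import Fermat.Agent.S48.GT.Mat

/-!
# S48 / GT / Fixed : a non-scalar element of order prime to the characteristic has exactly two
fixed points on `ℙ¹(k)`, `k` algebraically closed.

Proof.  `exists_roots` : trace `= a + b`, det `= a b`.  `a ≠ b`, otherwise `g` is scalar
(`eq_smul_one_of_double`).  `exists_eigenvec` gives `v_a`, `v_b`; the fixed points are exactly
`mk v_a ≠ mk v_b`: if `g v = c v` then `c` is a root of `(X - a)(X - b)` (`eigen_root`), say `c = a`,
and `v ∈ k v_a`, otherwise `g` is scalar (`eq_smul_one_of_two_eigenvec`).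
-/

namespace Fermat.Agent.S48.GT

open Matrix
open scoped LinearAlgebra.Projectivization MatrixGroups

universe u

variable {k : Type u} [Field k]

theorem ncard_fixed [IsAlgClosed k] (g : GL (Fin 2) k) (hg : ¬ IsSc g) (n : ℕ) (hn : (n : k) ≠ 0)
    (hgn : g ^ n = 1) : {L : P1 k | g • L = L}.ncard = 2 := by
  obtain ⟨a, b, ht, hd⟩ := exists_roots (g : Matrix (Fin 2) (Fin 2) k).trace
    (g : Matrix (Fin 2) (Fin 2) k).det
  have hgn' : (g : Matrix (Fin 2) (Fin 2) k) ^ n = 1 := by
    rw [← Units.val_pow_eq_pow_val, hgn, Units.val_one]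
  have hab : a ≠ b := by
    rintro rfl
    exact hg ⟨a, eq_smul_one_of_double _ n hn hgn' a ht hd⟩
  obtain ⟨va, hva, hga⟩ := exists_eigenvec (g : Matrix (Fin 2) (Fin 2) k) a
    (by rw [ht, hd]; ring)
  obtain ⟨vb, hvb, hgb⟩ := exists_eigenvec (g : Matrix (Fin 2) (Fin 2) k) b
    (by rw [ht, hd]; ring)
  have hne : (Projectivization.mk k va hva : P1 k) ≠ Projectivization.mk k vb hvb := by
    intro h
    obtain ⟨c, hc⟩ := (mk_eq_mk_iff_exists vb va hvb hva).1 h
    have h1 : a • va = b • va := by
      rw [← hga, hc, Matrix.mulVec_smul, hgb, smul_comm]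
    have h2 : (a - b) • va = 0 := by rw [sub_smul, h1, sub_self]
    rcases smul_eq_zero.1 h2 with h3 | h3
    · exact hab (sub_eq_zero.1 h3)
    · exact hva h3
  have hset : {L : P1 k | g • L = L} =
      {(Projectivization.mk k va hva : P1 k), Projectivization.mk k vb hvb} := by
    ext L
    induction L using Projectivization.ind with
    | h v hv =>
      rw [Set.mem_ofPred_eq, smul_mk_eq_iff, Set.mem_insert_iff, Set.mem_singleton_iff]
      constructor
      · rintro ⟨c, hc⟩
        have h1 := eigen_root _ c v hv hc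
        rw [ht, hd] at h1
        have h2 : (c - a) * (c - b) = 0 := by linear_combination h1
        rcases mul_eq_zero.1 h2 with h3 | h3
        · left
          have hca : c = a := sub_eq_zero.1 h3
          rw [mk_eq_mk_iff_exists]
          by_contra hcon
          push Not at hcon
          exact hg ⟨a, eq_smul_one_of_two_eigenvec _ a va v hva hcon hga (hca ▸ hc)⟩
        · right
          have hcb : c = b := sub_eq_zero.1 h3
          rw [mk_eq_mk_iff_exists]
          by_contra hcon
          push Not at hcon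
          exact hg ⟨b, eq_smul_one_of_two_eigenvec _ b vb v hvb hcon hgb (hcb ▸ hc)⟩
      · rintro (h | h)
        · obtain ⟨c, rfl⟩ := (mk_eq_mk_iff_exists va v hva hv).1 h
          exact ⟨a, by rw [Matrix.mulVec_smul, hga, smul_comm]⟩
        · obtain ⟨c, rfl⟩ := (mk_eq_mk_iff_exists vb v hvb hv).1 h
          exact ⟨b, by rw [Matrix.mulVec_smul, hgb, smul_comm]⟩
  rw [hset, Set.ncard_pair hne]

end Fermat.Agent.S48.GT
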