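import Fermat.Agent.S48.GT.Eig

/-!
# S48 / GT / Fixed2 : fixed points on `ℙ¹(k)` of non-scalar elements (no hypothesis on the order)

`isSc_of_three_fixed`: eigenvectors `v₁, v₂, v₃` pairwise non proportional, `v₃ = x v₁ + y v₂` with
`x, y ≠ 0`; comparing `g v₃ = c₃ v₃` gives `c₁ = c₃ = c₂`; then `eq_smul_one_of_two_eigenvec`.
`ncard_fixed_eq`: copy of the proof of `ncard_fixed` (GT/Fixed.lean) from `a ≠ b` on.
-/

namespace Fermat.Agent.S48.GT

open Matrix
open scoped LinearAlgebra.Projectivization MatrixGroups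

universe u

variable {k : Type u} [Field k]

/-- Two distinct fixed points with the same eigenvalue: scalar. -/
theorem Fixed2.isSc_of_two (g : GL (Fin 2) k) (c : k) (v w : Fin 2 → k) (hv : v ≠ 0) (hw : w ≠ 0)
    (hne : (Projectivization.mk k v hv : P1 k) ≠ Projectivization.mk k w hw)
    (h1 : (g : Matrix (Fin 2) (Fin 2) k) *ᵥ v = c • v)
    (h2 : (g : Matrix (Fin 2) (Fin 2) k) *ᵥ w = c • w) : IsSc g := by
  refine ⟨c, eq_smul_one_of_two_eigenvec _ c v w hv ?_ h1 h2⟩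
  intro x hx
  exact hne ((mk_eq_mk_iff_exists v w hv hw).2 ⟨x, hx⟩).symm

theorem isSc_of_three_fixed (g : GL (Fin 2) k) (L₁ L₂ L₃ : P1 k) (h12 : L₁ ≠ L₂) (h13 : L₁ ≠ L₃)
    (h23 : L₂ ≠ L₃) (h1 : g • L₁ = L₁) (h2 : g • L₂ = L₂) (h3 : g • L₃ = L₃) : IsSc g := by
  induction L₁ using Projectivization.ind with
  | h v₁ hv₁ =>
  induction L₂ using Projectivization.ind with
  | h v₂ hv₂ =>
  induction L₃ using Projectivization.ind with
  | h v₃ hv₃ =>
  obtain ⟨c₁, hc₁⟩ := (smul_mk_eq_iff g v₁ hv₁).1 h1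
  obtain ⟨c₂, hc₂⟩ := (smul_mk_eq_iff g v₂ hv₂).1 h2
  obtain ⟨c₃, hc₃⟩ := (smul_mk_eq_iff g v₃ hv₃).1 h3
  have e1 := eigen_root _ c₁ v₁ hv₁ hc₁
  have e2 := eigen_root _ c₂ v₂ hv₂ hc₂
  have e3 := eigen_root _ c₃ v₃ hv₃ hc₃
  by_cases a12 : c₁ = c₂
  · exact Fixed2.isSc_of_two g c₁ v₁ v₂ hv₁ hv₂ h12 hc₁ (a12 ▸ hc₂)
  by_cases a13 : c₁ = c₃
  · exact Fixed2.isSc_of_two g c₁ v₁ v₃ hv₁ hv₃ h13 hc₁ (a13 ▸ hc₃)
  have f12 : (c₁ - c₂) * (c₁ + c₂ - (g : Matrix (Fin 2) (Fin 2) k).trace) = 0 := by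
    linear_combination e1 - e2
  have f13 : (c₁ - c₃) * (c₁ + c₃ - (g : Matrix (Fin 2) (Fin 2) k).trace) = 0 := by
    linear_combination e1 - e3
  have g12 := (mul_eq_zero.1 f12).resolve_left (sub_ne_zero.2 a12)
  have g13 := (mul_eq_zero.1 f13).resolve_left (sub_ne_zero.2 a13)
  have a23 : c₂ = c₃ := by linear_combination g12 - g13
  exact Fixed2.isSc_of_two g c₂ v₂ v₃ hv₂ hv₃ h23 hc₂ (a23 ▸ hc₃)

theorem finite_fixed (g : GL (Fin 2) k) (hg : ¬ IsSc g) : {L : P1 k | g • L = L}.Finite := by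
  classical
  by_contra hinf
  obtain ⟨t, ht, hcard⟩ := Set.Infinite.exists_subset_card_eq hinf 3
  obtain ⟨x, y, z, hxy, hxz, hyz, rfl⟩ := Finset.card_eq_three.1 hcard
  have hx : g • x = x := ht (by simp)
  have hy : g • y = y := ht (by simp)
  have hz : g • z = z := ht (by simp)
  exact hg (isSc_of_three_fixed g x y z hxy hxz hyz hx hy hz)

theorem ncard_fixed_le (g : GL (Fin 2) k) (hg : ¬ IsSc g) : {L : P1 k | g • L = L}.ncard ≤ 2 := by
  by_contra hlt
  rw [not_le, Set.two_lt_ncard_iff (finite_fixed g hg)] at hlt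
  obtain ⟨x, y, z, hx, hy, hz, hxy, hxz, hyz⟩ := hlt
  exact hg (isSc_of_three_fixed g x y z hxy hxz hyz hx hy hz)

theorem ncard_fixed_eq (g : GL (Fin 2) k) (a b : k) (hab : a ≠ b) (h : Eig g a b) :
    {L : P1 k | g • L = L}.ncard = 2 := by
  obtain ⟨ht, hd⟩ := h
  obtain ⟨va, hva, hga⟩ := exists_eigenvec (g : Matrix (Fin 2) (Fin 2) k) a
    (by rw [ht, hd]; ring)
  obtain ⟨vb, hvb, hgb⟩ := exists_eigenvec (g : Matrix (Fin 2) (Fin 2) k) b
    (by rw [ht, hd]; ring)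
  have hne : (Projectivization.mk k va hva : P1 k) ≠ Projectivization.mk k vb hvb := by
    intro h
    obtain ⟨c, hc⟩ := (mk_eq_mk_iff_exists vb va hvb hva).1 h
    have h1 : a • va = b • va := by
      rw [← hga, hc, Matrix.mulVec_smul, hgb, smul_comm]
    have h2 : (a - b) • va = 0 := by rw [sub_smul, h1, sub_self]
    rcases smul_eq_zero.1 h2 with h3 | h3
    · exact hab (sub_eq_zero.1 h3)
    · exact hva h3
  have hfa : g • (Projectivization.mk k va hva : P1 k) = Projectivization.mk k va hva :=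
    (smul_mk_eq_iff g va hva).2 ⟨a, hga⟩
  have hfb : g • (Projectivization.mk k vb hvb : P1 k) = Projectivization.mk k vb hvb :=
    (smul_mk_eq_iff g vb hvb).2 ⟨b, hgb⟩
  have hg : ¬ IsSc g := by
    rintro ⟨c, hc⟩
    have h1 : c • va = a • va := by rw [← hga, hc, Matrix.smul_mulVec, Matrix.one_mulVec]
    have h2 : c • vb = b • vb := by rw [← hgb, hc, Matrix.smul_mulVec, Matrix.one_mulVec]
    have h3 : c = a := smul_left_injective k hva h1
    have h4 : c = b := smul_left_injective k hvb h2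
    exact hab (h3.symm.trans h4)
  refine le_antisymm (ncard_fixed_le g hg) ?_
  refine (Set.ncard_pair hne).symm.le.trans (Set.ncard_le_ncard ?_ (finite_fixed g hg))
  intro L hL
  rcases hL with rfl | rfl
  · exact hfa
  · exact hfb

end Fermat.Agent.S48.GT
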