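import Fermat.Agent.S48.GT.Chi
import Fermat.Agent.S48.GT.AbsHom

/-!
# S48 / GT / Loc : the two local estimates in the stabiliser `S` of a point `L` of `ℙ¹`

Take `ρ` from `exists_ratioHom`.  For `g ∈ S` with eigenvalues `a, b`, `a / b = ρ g`; any other
eigenvalue pair is `(a, b)` or `(b, a)` (`Eig.unique`), so
`SD d g ↔ orderOf (ρ g) = d` (`orderOf_inv`, `orderOf_units`),  `PW m g ↔ ρ g ^ m = 1`,
`ρ g ≠ 1 → ¬ IsSc g` (`Eig.not_isSc`).  The subsets of `G` in the statements are the images of the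
corresponding subsets of `S` under the injection `S → G` (`Set.ncard_image_of_injective`).
Then `card_order_mul_le`, `card_le_two_mul`.
-/

namespace Fermat.Agent.S48.GT

open Matrix
open scoped LinearAlgebra.Projectivization MatrixGroups

universe u

variable {k : Type u} [Field k]

theorem Loc_SD_iff {g : GL (Fin 2) k} {a b : k} {r : kˣ} (h : Eig g a b) (hr : a / b = (r : k))
    (d : ℕ) : SD d g ↔ orderOf r = d := by
  constructor
  · rintro ⟨a', b', h', ho⟩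
    rcases h.unique h' with ⟨rfl, rfl⟩ | ⟨rfl, rfl⟩
    · rw [hr, orderOf_units] at ho; exact ho
    · have : a' / b' = ((r⁻¹ : kˣ) : k) := by
        rw [Units.val_inv_eq_inv_val, ← hr, inv_div]
      rw [this, orderOf_units, orderOf_inv] at ho; exact ho
  · intro ho
    exact ⟨a, b, h, by rw [hr, orderOf_units, ho]⟩

theorem Loc_PW_iff {g : GL (Fin 2) k} {a b : k} {r : kˣ} (h : Eig g a b) (hr : a / b = (r : k))
    (m : ℕ) : PW m g ↔ r ^ m = 1 := by
  have hb : b ≠ 0 := h.ne_zero.2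
  have key : a ^ m = b ^ m ↔ r ^ m = 1 := by
    rw [← Units.val_inj, Units.val_pow_eq_pow_val, ← hr, div_pow, Units.val_one,
      div_eq_one_iff_eq (pow_ne_zero m hb)]
  constructor
  · rintro ⟨a', b', h', ho⟩
    rcases h.unique h' with ⟨rfl, rfl⟩ | ⟨rfl, rfl⟩
    · exact key.mp ho
    · exact key.mp ho.symm
  · intro ho
    exact ⟨a, b, h, key.mpr ho⟩

theorem Loc_not_isSc {g : GL (Fin 2) k} {a b : k} {r : kˣ} (h : Eig g a b) (hr : a / b = (r : k))
    (hne : r ≠ 1) : ¬ IsSc g := by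
  apply h.not_isSc
  rintro rfl
  apply hne
  rw [← Units.val_inj, ← hr, Units.val_one, div_self h.ne_zero.1]

theorem A_loc (G : Subgroup (GL (Fin 2) k)) [Finite G] (d : ℕ) (hd : 2 ≤ d) (L : P1 k) :
    {g : G | g • L = L ∧ g ∈ {g : G | SD d (g : GL (Fin 2) k)}}.ncard * (d - 1) ≤
      d.totient * {g : G | g • L = L ∧ g ∈ {g : G | ¬ IsSc (g : GL (Fin 2) k)}}.ncard := by
  obtain ⟨ρ, hρ⟩ := exists_ratioHom G L
  have h1 : {g : G | g • L = L ∧ g ∈ {g : G | SD d (g : GL (Fin 2) k)}} =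
      Subtype.val '' {s : MulAction.stabilizer G L | orderOf (ρ s) = d} := by
    ext g
    simp only [Set.mem_ofPred_eq, Set.mem_image]
    constructor
    · rintro ⟨hg, hs⟩
      obtain ⟨a, b, hab, hr⟩ := hρ ⟨g, hg⟩
      exact ⟨⟨g, hg⟩, (Loc_SD_iff hab hr d).mp hs, rfl⟩
    · rintro ⟨s, hs, rfl⟩
      obtain ⟨a, b, hab, hr⟩ := hρ s
      exact ⟨s.2, (Loc_SD_iff hab hr d).mpr hs⟩
  have h2 : Subtype.val '' {s : MulAction.stabilizer G L | ρ s ≠ 1} ⊆
      {g : G | g • L = L ∧ g ∈ {g : G | ¬ IsSc (g : GL (Fin 2) k)}} := by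
    rintro _ ⟨s, hs, rfl⟩
    obtain ⟨a, b, hab, hr⟩ := hρ s
    exact ⟨s.2, Loc_not_isSc hab hr hs⟩
  rw [h1, Set.ncard_image_of_injective _ Subtype.val_injective]
  refine (card_order_mul_le ρ d hd).trans (Nat.mul_le_mul_left _ ?_)
  rw [← Set.ncard_image_of_injective _ Subtype.val_injective]
  exact Set.ncard_le_ncard h2 (Set.toFinite _)

theorem F1_loc (G : Subgroup (GL (Fin 2) k)) [Finite G] (m : ℕ) (L : P1 k) (x : G)
    (hxL : x • L = L) (hx : ¬ PW m (x : GL (Fin 2) k)) :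
    Nat.card (MulAction.stabilizer G L) ≤
      2 * {g : G | g • L = L ∧ g ∈ {g : G | ¬ PW m (g : GL (Fin 2) k)}}.ncard := by
  obtain ⟨ρ, hρ⟩ := exists_ratioHom G L
  have hx' : ρ ⟨x, hxL⟩ ^ m ≠ 1 := by
    obtain ⟨a, b, hab, hr⟩ := hρ ⟨x, hxL⟩
    exact fun h => hx ((Loc_PW_iff hab hr m).mpr h)
  have h2 : Subtype.val '' {s : MulAction.stabilizer G L | ρ s ^ m ≠ 1} ⊆
      {g : G | g • L = L ∧ g ∈ {g : G | ¬ PW m (g : GL (Fin 2) k)}} := by
    rintro _ ⟨s, hs, rfl⟩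
    obtain ⟨a, b, hab, hr⟩ := hρ s
    exact ⟨s.2, fun h => hs ((Loc_PW_iff hab hr m).mp h)⟩
  refine (card_le_two_mul ρ m ⟨x, hxL⟩ hx').trans (Nat.mul_le_mul_left _ ?_)
  rw [← Set.ncard_image_of_injective _ Subtype.val_injective]
  exact Set.ncard_le_ncard h2 (Set.toFinite _)

end Fermat.Agent.S48.GT
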