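import Fermat.Agent.S48.GT.CaseA
import Fermat.Agent.S48.GT.CaseB

/-!
# S48 / GT / Main
-/

namespace Fermat.Agent.S48.GT

open Matrix
open scoped LinearAlgebra.Projectivization MatrixGroups

universe u

variable {k : Type u} [Field k]

/-- **GT**, with `η = 1/4`.  `G ≤ GL₂(k)` finite and semisimple, `k` algebraically closed of
characteristic `l`, `det g ^ e = 1` on `G`, `H ⊆ G` with `|H| ≥ (3/4) |G|` on which (trace, det)
takes its values in the finite set `Y`; if `l ≥ (4/3) (|Y| + 1)` then `l ∤ |G|` and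
`|G| ≤ max (120 e) (8 |Y|)`. -/
theorem main (l : ℕ) [Fact l.Prime] [CharP k l] [IsAlgClosed k]
    (G : Subgroup (GL (Fin 2) k)) [Finite G] (hss : SS G) (e : ℕ) (he : 0 < e)
    (hdet : ∀ g ∈ G, (g : Matrix (Fin 2) (Fin 2) k).det ^ e = 1)
    (H : Set G) (Y : Finset (k × k)) (hY : ∀ h ∈ H, td (h : GL (Fin 2) k) ∈ Y)
    (hH : 3 * Nat.card G ≤ 4 * H.ncard) (hl : 4 * (Y.card + 1) ≤ 3 * l) :
    ¬ l ∣ Nat.card G ∧ Nat.card G ≤ max (120 * e) (8 * Y.card) := by
  have hN : 0 < Nat.card G := Nat.card_pos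
  have hnd : ¬ l ∣ Nat.card G := by
    intro hd
    have hA := caseA l G hss hd H Y hY
    have h1 : 3 * (l * (l + 1)) * Nat.card G ≤ 4 * (l + (l + 1) * Y.card) * Nat.card G := by
      calc 3 * (l * (l + 1)) * Nat.card G = (l * (l + 1)) * (3 * Nat.card G) := by ring
        _ ≤ (l * (l + 1)) * (4 * H.ncard) := Nat.mul_le_mul_left _ hH
        _ = 4 * (l * (l + 1) * H.ncard) := by ring
        _ ≤ 4 * ((l + (l + 1) * Y.card) * Nat.card G) := Nat.mul_le_mul_left _ hA
        _ = 4 * (l + (l + 1) * Y.card) * Nat.card G := by ring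
    have h2 : 3 * (l * (l + 1)) ≤ 4 * (l + (l + 1) * Y.card) := Nat.le_of_mul_le_mul_right h1 hN
    nlinarith
  refine ⟨hnd, ?_⟩
  have hk : ((Nat.card G : ℕ) : k) ≠ 0 := by
    rwa [Ne, CharP.cast_eq_zero_iff k l]
  rcases caseB G hk e he hdet H Y hY with h | h
  · exact le_max_of_le_left h
  · exact le_max_of_le_right (by omega)

end Fermat.Agent.S48.GT
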