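import Fermat.Agent.S48.GT.Defs

/-!
# S48 / GT / Mat : elementary facts on `2 × 2` matrices

All proofs are a few lines (`Matrix.trace_fin_two`, `Matrix.det_fin_two`, `ext i j; fin_cases i, j`,
`Matrix.exists_mulVec_eq_zero_iff`, `IsAlgClosed.exists_root`).
-/

namespace Fermat.Agent.S48.GT

open Matrix
open scoped LinearAlgebra.Projectivization MatrixGroups

universe u

variable {k : Type u} [Field k]

/-- Cayley–Hamilton for `2 × 2` matrices. -/
lemma sq_eq (g : Matrix (Fin 2) (Fin 2) k) :
    g * g = g.trace • g - g.det • (1 : Matrix (Fin 2) (Fin 2) k) := by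
  ext i j
  fin_cases i <;> fin_cases j <;>
    simp [Matrix.mul_apply, Fin.sum_univ_two, Matrix.trace_fin_two, Matrix.det_fin_two] <;> ring

/-- A matrix of finite order prime to the characteristic whose characteristic polynomial is
`(X - a)²` is the scalar `a`.
Proof: `ν = g - a` has `ν² = 0` (`sq_eq`), `g ^ n = a ^ n + n a ^ (n-1) ν = 1`; multiply by `ν`:
`(a ^ n - 1) ν = 0`; if `ν ≠ 0` then `a ^ n = 1`, so `n a ^ (n-1) ν = 0`, so `ν = 0`. -/
lemma eq_smul_one_of_double (g : Matrix (Fin 2) (Fin 2) k) (n : ℕ) (hn : (n : k) ≠ 0)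
    (hg : g ^ n = 1) (a : k) (ht : g.trace = a + a) (hd : g.det = a * a) :
    g = a • (1 : Matrix (Fin 2) (Fin 2) k) := by
  obtain ⟨ν, hν⟩ : ∃ ν, ν = g - a • (1 : Matrix (Fin 2) (Fin 2) k) := ⟨_, rfl⟩
  have hgν : g = a • (1 : Matrix (Fin 2) (Fin 2) k) + ν := by rw [hν]; abel
  have hνν : ν * ν = 0 := by
    rw [hν]
    have := sq_eq g
    rw [ht, hd] at this
    simp only [sub_mul, mul_sub, smul_mul_assoc, mul_smul_comm, one_mul, mul_one, this]
    module
  have hpow : ∀ m : ℕ, g ^ (m + 1) =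
      a ^ (m + 1) • (1 : Matrix (Fin 2) (Fin 2) k) + ((m + 1 : k) * a ^ m) • ν := by
    intro m
    induction m with
    | zero => simp [← hgν]
    | succ m ih =>
      rw [pow_succ, ih]
      conv_lhs => rw [hgν]
      simp only [add_mul, mul_add, smul_mul_assoc, mul_smul_comm, one_mul, mul_one, hνν,
        smul_zero]
      push_cast
      module
  obtain ⟨m, rfl⟩ : ∃ m, n = m + 1 := by
    cases n with
    | zero => simp at hn
    | succ m => exact ⟨m, rfl⟩
  have h1 := hpow m
  rw [hg] at h1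
  have h2 : ν = a ^ (m + 1) • ν := by
    have := congrArg (fun M => M * ν) h1
    simpa only [add_mul, smul_mul_assoc, one_mul, hνν, smul_zero, add_zero] using this
  by_cases hν0 : ν = 0
  · rw [hgν, hν0, add_zero]
  · exfalso
    have h3 : a ^ (m + 1) = 1 := by
      have : (a ^ (m + 1) - 1) • ν = 0 := by rw [sub_smul, one_smul, ← h2, sub_self]
      rcases smul_eq_zero.1 this with h | h
      · exact sub_eq_zero.1 h
      · exact absurd h hν0
    rw [h3, one_smul] at h1
    have h4 : ((m + 1 : k) * a ^ m) • ν = 0 := by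
      have := h1
      nth_rewrite 1 [← add_zero (1 : Matrix (Fin 2) (Fin 2) k)] at this
      exact (add_left_cancel this).symm
    rcases smul_eq_zero.1 h4 with h | h
    · rcases mul_eq_zero.1 h with h | h
      · apply hn; push_cast; exact h
      · have : a ^ (m + 1) = 0 := by rw [pow_succ, h, zero_mul]
        rw [h3] at this
        exact one_ne_zero this
    · exact hν0 h

lemma exists_roots [IsAlgClosed k] (t d : k) : ∃ a b : k, t = a + b ∧ d = a * b := by
  obtain ⟨a, ha⟩ := IsAlgClosed.exists_root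
    (Polynomial.X ^ 2 - Polynomial.C t * Polynomial.X + Polynomial.C d : Polynomial k) (by
      have : (Polynomial.X ^ 2 - Polynomial.C t * Polynomial.X + Polynomial.C d :
          Polynomial k).degree = 2 := by
        compute_degree!
      rw [this]; norm_num)
  refine ⟨a, t - a, by ring, ?_⟩
  simp [Polynomial.IsRoot] at ha
  linear_combination ha

lemma exists_eigenvec (g : Matrix (Fin 2) (Fin 2) k) (a : k)
    (ha : a * a - g.trace * a + g.det = 0) : ∃ v : Fin 2 → k, v ≠ 0 ∧ g *ᵥ v = a • v := by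
  have hdet : (g - a • (1 : Matrix (Fin 2) (Fin 2) k)).det = 0 := by
    rw [Matrix.trace_fin_two, Matrix.det_fin_two] at ha
    rw [Matrix.det_fin_two]
    simp
    linear_combination ha
  obtain ⟨v, hv, h⟩ := Matrix.exists_mulVec_eq_zero_iff.2 hdet
  refine ⟨v, hv, ?_⟩
  rw [Matrix.sub_mulVec, Matrix.smul_mulVec, Matrix.one_mulVec] at h
  exact sub_eq_zero.1 h

lemma eigen_root (g : Matrix (Fin 2) (Fin 2) k) (a : k) (v : Fin 2 → k) (hv : v ≠ 0)
    (h : g *ᵥ v = a • v) : a * a - g.trace * a + g.det = 0 := by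
  have hdet : (g - a • (1 : Matrix (Fin 2) (Fin 2) k)).det = 0 := by
    apply Matrix.exists_mulVec_eq_zero_iff.1
    refine ⟨v, hv, ?_⟩
    rw [Matrix.sub_mulVec, Matrix.smul_mulVec, Matrix.one_mulVec, h, sub_self]
  rw [Matrix.trace_fin_two, Matrix.det_fin_two]
  rw [Matrix.det_fin_two] at hdet
  simp at hdet
  linear_combination hdet

/-- Two eigenvectors with the same eigenvalue which are not proportional: scalar matrix. -/
lemma eq_smul_one_of_two_eigenvec (g : Matrix (Fin 2) (Fin 2) k) (a : k) (v w : Fin 2 → k)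
    (hv : v ≠ 0) (hw : ∀ c : k, w ≠ c • v) (h1 : g *ᵥ v = a • v) (h2 : g *ᵥ w = a • w) :
    g = a • (1 : Matrix (Fin 2) (Fin 2) k) := by
  have hD : v 0 * w 1 - v 1 * w 0 ≠ 0 := by
    intro hD
    by_cases h0 : v 0 = 0
    · have h1' : v 1 ≠ 0 := by
        intro h1'
        apply hv
        ext i
        fin_cases i
        · exact h0
        · exact h1'
      apply hw (w 1 / v 1)
      ext i
      fin_cases i
      · simp only [Fin.zero_eta, Pi.smul_apply, smul_eq_mul, h0, mul_zero]
        rw [h0, zero_mul, zero_sub, neg_eq_zero] at hD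
        exact (mul_eq_zero.1 hD).resolve_left h1'
      · simp only [Fin.mk_one, Pi.smul_apply, smul_eq_mul]
        field_simp
    · apply hw (w 0 / v 0)
      ext i
      fin_cases i
      · simp only [Fin.zero_eta, Pi.smul_apply, smul_eq_mul]
        field_simp
      · simp only [Fin.mk_one, Pi.smul_apply, smul_eq_mul]
        field_simp
        linear_combination hD
  have e1 : ∀ i, g i 0 * v 0 + g i 1 * v 1 = a * v i := by
    intro i
    have := congrFun h1 i
    simpa [Matrix.mulVec, dotProduct, Fin.sum_univ_two] using this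
  have e2 : ∀ i, g i 0 * w 0 + g i 1 * w 1 = a * w i := by
    intro i
    have := congrFun h2 i
    simpa [Matrix.mulVec, dotProduct, Fin.sum_univ_two] using this
  ext i j
  fin_cases i <;> fin_cases j
  · simp only [Fin.zero_eta, Matrix.smul_apply, Matrix.one_apply_eq, smul_eq_mul, mul_one]
    apply mul_right_cancel₀ hD
    linear_combination w 1 * e1 0 - v 1 * e2 0
  · simp only [Fin.zero_eta, Fin.mk_one, Matrix.smul_apply, smul_eq_mul]
    rw [Matrix.one_apply_ne (by decide), mul_zero]
    apply mul_right_cancel₀ hD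
    linear_combination v 0 * e2 0 - w 0 * e1 0
  · simp only [Fin.zero_eta, Fin.mk_one, Matrix.smul_apply, smul_eq_mul]
    rw [Matrix.one_apply_ne (by decide), mul_zero]
    apply mul_right_cancel₀ hD
    linear_combination w 1 * e1 1 - v 1 * e2 1
  · simp only [Fin.mk_one, Matrix.smul_apply, Matrix.one_apply_eq, smul_eq_mul, mul_one]
    apply mul_right_cancel₀ hD
    linear_combination v 0 * e2 1 - w 0 * e1 1

/-- Fixed points on `ℙ¹` are eigenlines. -/
lemma smul_mk_eq_iff (g : GL (Fin 2) k) (v : Fin 2 → k) (hv : v ≠ 0) :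
    g • (Projectivization.mk k v hv : P1 k) = Projectivization.mk k v hv ↔
      ∃ c : k, (g : Matrix (Fin 2) (Fin 2) k) *ᵥ v = c • v := by
  rw [Projectivization.smul_mk, Projectivization.mk_eq_mk_iff']
  constructor
  · rintro ⟨c, hc⟩
    exact ⟨c, hc.symm⟩
  · rintro ⟨c, hc⟩
    exact ⟨c, hc.symm⟩

/-- Equality of points of `ℙ¹`. -/
lemma mk_eq_mk_iff_exists (v w : Fin 2 → k) (hv : v ≠ 0) (hw : w ≠ 0) :
    (Projectivization.mk k w hw : P1 k) = Projectivization.mk k v hv ↔ ∃ c : k, w = c • v := by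
  rw [Projectivization.mk_eq_mk_iff']
  constructor
  · rintro ⟨c, hc⟩
    exact ⟨c, hc.symm⟩
  · rintro ⟨c, hc⟩
    exact ⟨c, hc.symm⟩

lemma smul_mk_eq (g : GL (Fin 2) k) (v : Fin 2 → k) (hv : v ≠ 0)
    (hgv : (g : Matrix (Fin 2) (Fin 2) k) *ᵥ v ≠ 0) :
    g • (Projectivization.mk k v hv : P1 k) =
      Projectivization.mk k ((g : Matrix (Fin 2) (Fin 2) k) *ᵥ v) hgv := by
  rfl

lemma mulVec_ne_zero (g : GL (Fin 2) k) (v : Fin 2 → k) (hv : v ≠ 0) :
    (g : Matrix (Fin 2) (Fin 2) k) *ᵥ v ≠ 0 := by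
  exact (smul_ne_zero_iff_ne g).mpr hv

/-- Scalar matrices act trivially on `ℙ¹`. -/
lemma IsSc.smul_eq {g : GL (Fin 2) k} (hg : IsSc g) (L : P1 k) : g • L = L := by
  obtain ⟨c, hc⟩ := hg
  induction L using Projectivization.ind with
  | _ v hv =>
    rw [smul_mk_eq_iff]
    exact ⟨c, by rw [hc, Matrix.smul_mulVec, Matrix.one_mulVec]⟩

/-- An element of finite order prime to the characteristic, of determinant one, fixing a
nonzero vector, is the identity (`eigen_root` gives `trace = 2`, then `eq_smul_one_of_double`). -/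
lemma eq_one_of_fix (g : GL (Fin 2) k) (n : ℕ) (hn : (n : k) ≠ 0) (hgn : g ^ n = 1)
    (v : Fin 2 → k) (hv : v ≠ 0) (h1 : (g : Matrix (Fin 2) (Fin 2) k) *ᵥ v = v)
    (hdet : (g : Matrix (Fin 2) (Fin 2) k).det = 1) : g = 1 := by
  have h := eigen_root (g : Matrix (Fin 2) (Fin 2) k) 1 v hv (by rw [h1, one_smul])
  rw [hdet] at h
  have ht : (g : Matrix (Fin 2) (Fin 2) k).trace = 1 + 1 := by linear_combination -h
  have hgn' : (g : Matrix (Fin 2) (Fin 2) k) ^ n = 1 := by
    rw [← Units.val_pow_eq_pow_val, hgn, Units.val_one]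
  have := eq_smul_one_of_double (g : Matrix (Fin 2) (Fin 2) k) n hn hgn' 1 ht (by rw [hdet, one_mul])
  apply Units.ext
  rw [this, one_smul, Units.val_one]

end Fermat.Agent.S48.GT
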