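import Fermat.Agent.S48.GT.Mat

/-!
# S48 / GT / Unip : elements of order `l` in characteristic `l` are transvections
-/

namespace Fermat.Agent.S48.GT

open Matrix
open scoped LinearAlgebra.Projectivization MatrixGroups

universe u

variable {k : Type u} [Field k]

/-- A nilpotent `2 × 2` matrix over a field has square zero. -/
lemma sq_zero_of_pow_zero (ν : Matrix (Fin 2) (Fin 2) k) (n : ℕ) (hn : ν ^ n = 0) :
    ν * ν = 0 := by
  have hdet : ν.det = 0 := by
    have h : ν.det ^ n = 0 := by
      rw [← Matrix.det_pow, hn]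
      exact Matrix.det_zero
    exact eq_zero_of_pow_eq_zero h
  have hsq : ν * ν = ν.trace • ν := by
    rw [sq_eq, hdet]
    simp
  have hpow : ∀ m : ℕ, ν ^ (m + 1) = ν.trace ^ m • ν := by
    intro m
    induction m with
    | zero => simp
    | succ m ih =>
      rw [pow_succ, ih, Matrix.smul_mul, hsq, smul_smul, pow_succ]
  by_cases h0 : ν = 0
  · rw [h0]; simp
  · have hn0 : n ≠ 0 := by
      rintro rfl
      rw [pow_zero] at hn
      exact one_ne_zero hn
    obtain ⟨m, rfl⟩ := Nat.exists_eq_succ_of_ne_zero hn0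
    rw [Nat.succ_eq_add_one, hpow m] at hn
    have ht : ν.trace ^ m = 0 := by
      rcases smul_eq_zero.1 hn with h | h
      · exact h
      · exact absurd h h0
    have ht' : ν.trace = 0 := eq_zero_of_pow_eq_zero ht
    rw [hsq, ht']
    simp

/-- Cauchy (`exists_prime_orderOf_dvd_card'`) gives `u` of order `l`; `ν = u - 1` satisfies
`ν ^ l = u ^ l - 1 = 0` (`sub_pow_char_of_commute`, `Matrix.charP`); by `sq_eq`,
`ν² = tr ν • ν - det ν • 1`, `det ν = 0` (nilpotent), so `ν ^ l = (tr ν) ^ (l-1) ν`, hence `tr ν = 0`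
(as `ν ≠ 0`) and `ν² = 0`. -/
theorem exists_unipotent (l : ℕ) [Fact l.Prime] [CharP k l] (G : Subgroup (GL (Fin 2) k))
    [Finite G] (hl : l ∣ Nat.card G) :
    ∃ u : G, orderOf u = l ∧
      (((u : GL (Fin 2) k) : Matrix (Fin 2) (Fin 2) k) - 1) ≠ 0 ∧
      (((u : GL (Fin 2) k) : Matrix (Fin 2) (Fin 2) k) - 1) *
        (((u : GL (Fin 2) k) : Matrix (Fin 2) (Fin 2) k) - 1) = 0 := by
  obtain ⟨u, hu⟩ := exists_prime_orderOf_dvd_card' (G := G) l hl
  refine ⟨u, hu, ?_, ?_⟩
  · intro h
    have h1 : ((u : GL (Fin 2) k) : Matrix (Fin 2) (Fin 2) k) = 1 := sub_eq_zero.1 h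
    have h2 : (u : GL (Fin 2) k) = 1 := Units.ext h1
    have h3 : u = 1 := Subtype.ext h2
    rw [h3, orderOf_one] at hu
    exact (Fact.out : l.Prime).one_lt.ne hu
  · apply sq_zero_of_pow_zero _ l
    have hpow : ((u : GL (Fin 2) k) : Matrix (Fin 2) (Fin 2) k) ^ l = 1 := by
      have h1 : u ^ l = 1 := by rw [← hu]; exact pow_orderOf_eq_one u
      have h2 : ((u ^ l : G) : GL (Fin 2) k) = 1 := by rw [h1]; rfl
      have h3 : (((u ^ l : G) : GL (Fin 2) k) : Matrix (Fin 2) (Fin 2) k) = 1 := by rw [h2]; rfl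
      simpa using h3
    have : CharP (Matrix (Fin 2) (Fin 2) k) l := Matrix.charP l
    rw [sub_pow_char_of_commute l (Commute.one_right _), hpow, one_pow, sub_self]

/-- In `k²`, a vector `w` with `det (v, w) = 0`, `v ≠ 0`, is a multiple of `v`. -/
lemma exists_smul_of_cross_zero (v w : Fin 2 → k) (hv : v ≠ 0)
    (h : v 0 * w 1 - v 1 * w 0 = 0) : ∃ c : k, w = c • v := by
  by_cases h0 : v 0 = 0
  · have h1 : v 1 ≠ 0 := by
      intro h1
      apply hv
      ext i
      fin_cases i
      · exact h0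
      · exact h1
    refine ⟨w 1 / v 1, ?_⟩
    have hw0 : w 0 = 0 := by
      rw [h0] at h
      have : v 1 * w 0 = 0 := by linear_combination -h
      exact (mul_eq_zero.1 this).resolve_left h1
    ext i
    fin_cases i
    · simp [hw0, h0]
    · simp [h1]
  · refine ⟨w 0 / v 0, ?_⟩
    ext i
    fin_cases i
    · simp [h0]
    · simp only [Fin.mk_one, Fin.isValue, Pi.smul_apply, smul_eq_mul]
      field_simp
      linear_combination h

lemma cross_zero_of_smul (v w : Fin 2 → k) (h : ∃ c : k, w = c • v) :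
    v 0 * w 1 - v 1 * w 0 = 0 := by
  obtain ⟨c, rfl⟩ := h
  simp only [Pi.smul_apply, smul_eq_mul]
  ring

/-- `ν ≠ 0`, `ν² = 0`: `ν x = φ(x) v` with `φ(v) = 0`, `ker ν = k v`, `tr (g ν) = φ (g v)`.
(Take `v` = a nonzero column of `ν`.) -/
theorem exists_line_of_sq_zero (ν : Matrix (Fin 2) (Fin 2) k) (h0 : ν ≠ 0) (h2 : ν * ν = 0) :
    ∃ v : Fin 2 → k, v ≠ 0 ∧ ν *ᵥ v = 0 ∧ (∀ w, ν *ᵥ w = 0 → ∃ c : k, w = c • v) ∧
      ∀ g : Matrix (Fin 2) (Fin 2) k, (g * ν).trace = 0 ↔ ∃ c : k, g *ᵥ v = c • v := by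
  have h00 : ν 0 0 * ν 0 0 + ν 0 1 * ν 1 0 = 0 := by
    have := congrFun (congrFun h2 0) 0
    simpa [Matrix.mul_apply, Fin.sum_univ_two] using this
  have h01 : ν 0 0 * ν 0 1 + ν 0 1 * ν 1 1 = 0 := by
    have := congrFun (congrFun h2 0) 1
    simpa [Matrix.mul_apply, Fin.sum_univ_two] using this
  have h10 : ν 1 0 * ν 0 0 + ν 1 1 * ν 1 0 = 0 := by
    have := congrFun (congrFun h2 1) 0
    simpa [Matrix.mul_apply, Fin.sum_univ_two] using this
  have h11 : ν 1 0 * ν 0 1 + ν 1 1 * ν 1 1 = 0 := by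
    have := congrFun (congrFun h2 1) 1
    simpa [Matrix.mul_apply, Fin.sum_univ_two] using this
  have htr : ν 0 0 + ν 1 1 = 0 := by
    by_contra hne
    have hb : ν 0 1 = 0 := by
      have : ν 0 1 * (ν 0 0 + ν 1 1) = 0 := by linear_combination h01
      exact (mul_eq_zero.1 this).resolve_right hne
    have hc : ν 1 0 = 0 := by
      have : ν 1 0 * (ν 0 0 + ν 1 1) = 0 := by linear_combination h10
      exact (mul_eq_zero.1 this).resolve_right hne
    have ha : ν 0 0 = 0 := by
      rw [hb] at h00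
      simpa using h00
    have hd : ν 1 1 = 0 := by
      rw [hb] at h11
      simpa using h11
    apply hne
    rw [ha, hd, add_zero]
  have hd : ν 1 1 = - ν 0 0 := by linear_combination htr
  by_cases hc : ν 1 0 = 0
  · -- `ν = [[0, b], [0, 0]]`
    have ha : ν 0 0 = 0 := by
      rw [hc] at h00
      simpa using h00
    have hd' : ν 1 1 = 0 := by rw [hd, ha, neg_zero]
    have hb : ν 0 1 ≠ 0 := by
      intro hb
      apply h0
      ext i j
      fin_cases i <;> fin_cases j
      · exact ha
      · exact hb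
      · exact hc
      · exact hd'
    have hv : (![ν 0 1, 0] : Fin 2 → k) ≠ 0 := by
      intro h
      exact hb (by simpa using congrFun h 0)
    refine ⟨![ν 0 1, 0], hv, ?_, ?_, ?_⟩
    · ext i
      fin_cases i
      · simp [Matrix.mulVec, dotProduct, Fin.sum_univ_two, ha]
      · simp [Matrix.mulVec, dotProduct, Fin.sum_univ_two, hc]
    · intro w hw
      apply exists_smul_of_cross_zero _ _ hv
      have := congrFun hw 0
      simp only [Matrix.mulVec, dotProduct, Fin.sum_univ_two, ha, Pi.zero_apply] at this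
      simp only [Matrix.cons_val_zero, Matrix.cons_val_one]
      linear_combination this
    · intro g
      have key : (![ν 0 1, 0] : Fin 2 → k) 0 * (g *ᵥ ![ν 0 1, 0]) 1
          - (![ν 0 1, 0] : Fin 2 → k) 1 * (g *ᵥ ![ν 0 1, 0]) 0 = ν 0 1 * (g * ν).trace := by
        simp only [Matrix.mulVec, dotProduct, Fin.sum_univ_two, Matrix.trace_fin_two,
          Matrix.mul_apply, Matrix.cons_val_zero, Matrix.cons_val_one, ha, hc, hd']
        ring
      constructor
      · intro h
        apply exists_smul_of_cross_zero _ _ hv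
        rw [key, h, mul_zero]
      · intro h
        have := cross_zero_of_smul _ _ h
        rw [key] at this
        exact (mul_eq_zero.1 this).resolve_left hb
  · have hv : (![ν 0 0, ν 1 0] : Fin 2 → k) ≠ 0 := by
      intro h
      exact hc (by simpa using congrFun h 1)
    refine ⟨![ν 0 0, ν 1 0], hv, ?_, ?_, ?_⟩
    · ext i
      fin_cases i
      · simp only [Matrix.mulVec, dotProduct, Fin.sum_univ_two, Matrix.cons_val_zero,
          Matrix.cons_val_one, Pi.zero_apply, Fin.zero_eta]
        linear_combination h00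
      · simp only [Matrix.mulVec, dotProduct, Fin.sum_univ_two, Matrix.cons_val_zero,
          Matrix.cons_val_one, Pi.zero_apply, Fin.mk_one]
        linear_combination h10
    · intro w hw
      apply exists_smul_of_cross_zero _ _ hv
      have := congrFun hw 1
      simp only [Matrix.mulVec, dotProduct, Fin.sum_univ_two, hd, Pi.zero_apply] at this
      simp only [Matrix.cons_val_zero, Matrix.cons_val_one]
      linear_combination -this
    · intro g
      have key : (![ν 0 0, ν 1 0] : Fin 2 → k) 0 * (g *ᵥ ![ν 0 0, ν 1 0]) 1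
          - (![ν 0 0, ν 1 0] : Fin 2 → k) 1 * (g *ᵥ ![ν 0 0, ν 1 0]) 0
            = - ν 1 0 * (g * ν).trace := by
        simp only [Matrix.mulVec, dotProduct, Fin.sum_univ_two, Matrix.trace_fin_two,
          Matrix.mul_apply, Matrix.cons_val_zero, Matrix.cons_val_one, hd]
        linear_combination (g 1 0) * h00
      constructor
      · intro h
        apply exists_smul_of_cross_zero _ _ hv
        rw [key, h, mul_zero]
      · intro h
        have := cross_zero_of_smul _ _ h
        rw [key] at this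
        exact (mul_eq_zero.1 this).resolve_left (neg_ne_zero.2 hc)

/-- `(1 + ν) ^ t = 1 + t ν`. -/
lemma pow_eq_of_sq_zero (u : Matrix (Fin 2) (Fin 2) k) (h2 : (u - 1) * (u - 1) = 0) (t : ℕ) :
    u ^ t = 1 + (t : k) • (u - 1) := by
  induction t with
  | zero => simp
  | succ t ih =>
    have hu : u = 1 + (u - 1) := by abel
    rw [pow_succ, ih]
    conv_lhs => rw [hu]
    rw [add_sub_cancel_left, add_mul, mul_add, mul_add, Matrix.smul_mul, Matrix.smul_mul, h2,
      one_mul, one_mul, mul_one, smul_zero, add_zero, Nat.cast_succ, add_smul, one_smul]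
    abel

end Fermat.Agent.S48.GT
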